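import Fermat.Agent.CFT.LocalInst.MuBridge
import Fermat.Agent.CFT.Cohomology.Shapiro
import Mathlib.RepresentationTheory.Rep.Basic

/-!
Corestriction is onto in degree two for `μ_p`: the composite with restriction is multiplication by
the index on the Brauer group, and restriction is onto there.
-/

set_option autoImplicit false
set_option linter.unusedSectionVars false

open CategoryTheory groupCohomology ExtCitation

noncomputable section

namespace Fermat.Agent.CFT.LocalInst

open Fermat.Agent.CFT.Local (IsSm1 IsSm2 Br brCls smZ2 resBr resSm galRes)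

/-- Every non-trivial class over a finite extension is the restriction of a class over `ℚ_ℓ` whose
`[E : ℚ_ℓ]`-th power is still non-trivial. -/
theorem exists_res_preimage {ℓ : ℕ} [Fact ℓ.Prime] (E : IntermediateField ℚ_[ℓ] (PadicAlgCl ℓ))
    [FiniteDimensional ℚ_[ℓ] E] (u : Br E (PadicAlgCl ℓ)) (hu : u ≠ 1) :
    ∃ f : smZ2 ℚ_[ℓ] (PadicAlgCl ℓ), (∃ h : smZ2 E (PadicAlgCl ℓ), brCls h = u ∧
      ∀ g g' : Gal(PadicAlgCl ℓ/E),
        ((h : Class.Z2 Gal(PadicAlgCl ℓ/E) (PadicAlgCl ℓ)ˣ) :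
          Gal(PadicAlgCl ℓ/E) × Gal(PadicAlgCl ℓ/E) → (PadicAlgCl ℓ)ˣ) (g, g')
        = ((f : Class.Z2 Gal(PadicAlgCl ℓ/ℚ_[ℓ]) (PadicAlgCl ℓ)ˣ) :
            Gal(PadicAlgCl ℓ/ℚ_[ℓ]) × Gal(PadicAlgCl ℓ/ℚ_[ℓ]) → (PadicAlgCl ℓ)ˣ)
          (g.restrictScalars ℚ_[ℓ], g'.restrictScalars ℚ_[ℓ])) ∧
      brCls f ^ Module.finrank ℚ_[ℓ] E ≠ 1 := by
  have := FiniteDimensional.proper ℚ_[ℓ] E
  obtain ⟨x, rfl⟩ := Local.resBr_surjective ℚ_[ℓ] (PadicAlgCl ℓ) E u
  induction x using QuotientGroup.induction_on with | H f => ?_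
  exact ⟨f, ⟨resSm ℚ_[ℓ] (PadicAlgCl ℓ) E f, rfl, fun g g' => rfl⟩,
    fun h => hu ((Local.resBr_eq_one_iff ℚ_[ℓ] (PadicAlgCl ℓ) E _).2 h)⟩

variable {q : Nat.Primes} {V : Subgroup (primeLocalGaloisGroup q)} {p : ℕ} [Fact p.Prime]

variable (q) in
/-- The multiplicative group as an additive module. -/
def omegaRep : Representation ℤ (primeLocalGaloisGroup q) (Additive (Omega q)ˣ) :=
  Representation.ofMulDistribMulAction (Gq q) (Omega q)ˣ

lemma omegaRep_apply (g : primeLocalGaloisGroup q) (a : Additive (Omega q)ˣ) :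
    omegaRep q g a = Additive.ofMul ((show Gq q from g) • a.toMul) := rfl

variable (q) in
/-- The multiplicative group as an object. -/
abbrev omegaMod : Rep.{0} ℤ (primeLocalGaloisGroup q) := Rep.of (omegaRep q)

variable (q p) in
/-- `muOmega` additively. -/
def muAdd : ZMod p →+ Additive (Omega q)ˣ :=
  AddMonoidHom.mk' (fun i => Additive.ofMul (muOmega q i))
    (fun i j => congrArg Additive.ofMul (muOmega_add i j))

lemma muAdd_smul (g : primeLocalGaloisGroup q) (i : ZMod p) :
    omegaRep q g (muAdd q p i) = muAdd q p ((muLoc p q).ρ g i) := by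
  refine congrArg Additive.ofMul (Units.ext ?_)
  refine (apply_padicEmbedding (show Gq q from g) _).trans ?_
  rw [gal_muInc]
  rfl

lemma const_of_sm1_base {X : Type} {f : Gq q → X} (hf : IsSm1 ℚ_[(q : ℕ)] (Omega q) f) :
    IsConst₁ Levels.all (primeLocalToGlobal q) (fun g : primeLocalGaloisGroup q => f g) := by
  obtain ⟨M, hM, h⟩ := hf
  obtain ⟨F, hF, h'⟩ := isLevel_fixingSubgroup M
  exact ⟨F, hF, fun g s hs => h g s (h' s hs)⟩

lemma const_of_sm2_base {X : Type} {f : Gq q × Gq q → X} (hf : IsSm2 ℚ_[(q : ℕ)] (Omega q) f) :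
    IsConst₂ Levels.all (primeLocalToGlobal q)
      (fun g : primeLocalGaloisGroup q × primeLocalGaloisGroup q => f g) := by
  obtain ⟨M, hM, h⟩ := hf
  obtain ⟨F, hF, h'⟩ := isLevel_fixingSubgroup M
  exact ⟨F, hF, fun g g' s s' hs hs' => h g g' s (h' s hs) s' (h' s' hs')⟩

lemma sm1_of_const_base {X : Type} {f : primeLocalGaloisGroup q → X}
    (hf : IsConst₁ Levels.all (primeLocalToGlobal q) f) :
    IsSm1 ℚ_[(q : ℕ)] (Omega q) (fun g : Gq q => f g) := by
  obtain ⟨F, hF, h⟩ := hf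
  obtain ⟨N, hN, h'⟩ := exists_locLevel (q := q) hF
  exact ⟨N, hN, fun g s hs => h g s (h' s hs)⟩

lemma sum_eq {G A X : Type} [Group G] [AddCommGroup A]
    [MulAction G X] [Fintype X] (ρ : Representation ℤ G A) (m : ZMod p →+ A) {ρm : Representation (ZMod p) G (ZMod p)}
    (hm : ∀ g i, ρ g (m i) = m (ρm g i)) {b : G → ZMod p} {C : X → ZMod p} {F : A} {Y : G → X → A}
    {g h : G} (hb : ρm g (b h) - b (g * h) + b g = ∑ᶠ x, C x)
    (hd : ∀ x, ρ g (Y h (g⁻¹ • x)) - Y (g * h) x + Y g x = m (C x) - F) :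
    ρ g (m (b h) - ∑ x, Y h x) - (m (b (g * h)) - ∑ x, Y (g * h) x) + (m (b g) - ∑ x, Y g x)
      = Fintype.card X • F := by
  have hsum := Finset.sum_congr (s₁ := Finset.univ) rfl fun x _ => hd x
  rw [Finset.sum_add_distrib, Finset.sum_sub_distrib, Finset.sum_sub_distrib, ← map_sum,
    ← map_sum, Finset.sum_const, Finset.card_univ,
    Fintype.sum_equiv (MulAction.toPerm g⁻¹) (fun x => Y h (g⁻¹ • x)) (Y h) (fun _ => rfl),
    ← finsum_eq_sum_of_fintype C] at hsum
  have hb' := congrArg m hb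
  rw [map_add, map_sub, ← hm] at hb'
  rw [map_sub]
  linear_combination (norm := abel) hb' - hsum

/-- The corestriction of a class that survives in the Brauer group is non-zero. -/
theorem sum_ne_zero (hV : IsLocLevel q V)
    {c : ↥V × ↥V → ZMod p} (hc : c ∈ Z2 Levels.all (rV q V) (muV p q V))
    (hc0 : H2cπ Levels.all (rV q V) (muV p q V) ⟨c, hc⟩ ≠ 0)
    {b : primeLocalGaloisGroup q → ZMod p} (hb : IsConst₁ Levels.all (primeLocalToGlobal q) b)
    (hbd : ∀ g h, (muLoc p q).ρ g (b h) - b (g * h) + b g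
      = ∑ᶠ x, shapiroInv₂ (M := muLoc p q) c (g, h) x) : False := by
  have := hV.finite_quotient
  let _ := Fintype.ofFinite (primeLocalGaloisGroup q ⧸ V)
  have := finiteDimensional_fld hV
  have := FiniteDimensional.proper ℚ_[(q : ℕ)] (fld V)
  obtain ⟨f, ⟨r, hr, hrf⟩, hxn⟩ := @exists_res_preimage (q : ℕ) (factPrimes q) (fld V) _
    (brCls (Additive.toMul (toSm hV ⟨c, hc⟩)))
    fun h => hc0 ((Submodule.Quotient.mk_eq_zero _).2 (mem_B2_of_toSm hV h))
  by_contra
  refine hxn ?_
  obtain ⟨w, hw, hwd⟩ := (Local.brCls_eq_iff _ _).1 hr.symm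
  let F : primeLocalGaloisGroup q × primeLocalGaloisGroup q → Additive (Omega q)ˣ :=
    fun gh => Additive.ofMul (((f : Class.Z2 (Gq q) (Omega q)ˣ) : Gq q × Gq q → (Omega q)ˣ)
      (show Gq q × Gq q from gh))
  have hFc : IsConst₂ Levels.all (primeLocalToGlobal q) F :=
    (const_of_sm2_base f.2).comp Additive.ofMul
  have hF : ∀ g h j, F (g * h, j) + F (g, h) = omegaRep q g (F (h, j)) + F (g, h * j) := fun g h j =>
    congrArg Additive.ofMul ((f : Class.Z2 (Gq q) (Omega q)ˣ).2
      (show Gq q from g) (show Gq q from h) (show Gq q from j))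
  let C := shapiroInv₂ (M := muLoc p q) c
  let C' : primeLocalGaloisGroup q × primeLocalGaloisGroup q → (funRep (omegaMod q) V : Type) :=
    fun gh x => muAdd q p (C gh x) - F gh
  have hCc : IsConst₂ Levels.all (primeLocalToGlobal q) C := by
    exact shapiroInv₂_isConst₂ Levels.normalBasis_all hV hc.2
  have hC' : C' ∈ cocycles₂ (funRep (omegaMod q) V) := by
    refine (mem_cocycles₂_iff (A := funRep (omegaMod q) V) C').2 fun g h j => funext fun x => ?_
    have h1 := congrFun ((mem_cocycles₂_iff (A := funRep (muLoc p q) V) C).1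
      (shapiroInv₂_mem_cocycles₂ (M := muLoc p q) hc.1) g h j) x
    have h2 : muAdd q p (C (g * h, j) x) + muAdd q p (C (g, h) x)
        = omegaRep q g (muAdd q p (C (h, j) (g⁻¹ • x))) + muAdd q p (C (g, h * j) x) := by
      rw [muAdd_smul, ← map_add, ← map_add]
      exact congrArg (muAdd q p) h1
    have h3 := hF g h j
    show (muAdd q p (C (g * h, j) x) - F (g * h, j)) + (muAdd q p (C (g, h) x) - F (g, h))
      = omegaRep q g (muAdd q p (C (h, j) (g⁻¹ • x)) - F (h, j))
        + (muAdd q p (C (g, h * j) x) - F (g, h * j))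
    rw [map_sub]
    linear_combination (norm := abel) h2 - h3
  have hC'c : IsConst₂ Levels.all (primeLocalToGlobal q) C' :=
    (hCc.prodMk hFc).comp (fun z x => muAdd q p (z.1 x) - z.2)
  obtain ⟨Y, hY, hYd⟩ := exists_eq_d₁₂_of_shapiro (M := omegaMod q) Levels.normalBasis_all hV hC' hC'c
    (b := fun v : ↥V => Additive.ofMul (w (galEquiv hV v)))
    ((const_of_sm1 hV hw).comp Additive.ofMul) (fun s t => by
      have hg : ∀ v : ↥V,
          (galEquiv hV v).restrictScalars ℚ_[(q : ℕ)] = (show Gq q from v.1) :=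
        fun v => AlgEquiv.ext fun x => galEquiv_apply hV v x
      have h1 := hwd (galEquiv hV s) (galEquiv hV t)
      have hs : (galEquiv hV).symm (galEquiv hV s) = s := (galEquiv hV).symm_apply_apply s
      have ht : (galEquiv hV).symm (galEquiv hV t) = t := (galEquiv hV).symm_apply_apply t
      replace h1 : muOmega q (c (s, t)) = _ :=
        ((congrArg₂ (fun a b => muOmega q (c (a, b))) hs ht).symm).trans h1
      rw [Class.delta1_apply, hrf, hg, hg, show galEquiv hV s * galEquiv hV t = galEquiv hV (s * t) from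
          (map_mul (galEquiv hV) s t).symm] at h1
      show muAdd q p (C ((s : primeLocalGaloisGroup q), (t : primeLocalGaloisGroup q))
          (QuotientGroup.mk 1)) - F (s, t) = _
      rw [show C ((s : primeLocalGaloisGroup q), (t : primeLocalGaloisGroup q)) (QuotientGroup.mk 1)
        = c (s, t) from shapiro₂_cochain (M := muLoc p q) c s t]
      show Additive.ofMul (muOmega q (c (s, t))) - _ = _
      rw [h1, sub_eq_iff_eq_add', ofMul_mul, ofMul_mul, ofMul_div]
      rfl)
  let S : primeLocalGaloisGroup q → Additive (Omega q)ˣ := fun g => muAdd q p (b g) - ∑ x, Y g x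
  have hS : IsConst₁ Levels.all (primeLocalToGlobal q) S :=
    (hb.prodMk hY).comp (fun z => muAdd q p z.1 - ∑ x, z.2 x)
  have hfin : ∀ g h : primeLocalGaloisGroup q,
      omegaRep q g (S h) - S (g * h) + S g = Fintype.card (primeLocalGaloisGroup q ⧸ V) • F (g, h) := by
    intro g h
    exact sum_eq (omegaRep q) (muAdd q p) (fun g i => muAdd_smul g i) (g := g) (h := h) (hbd g h)
      (fun x => congrFun (congrFun hYd (g, h)) x)
  rw [← QuotientGroup.mk_pow, Local.brCls_eq_one_iff]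
  refine ⟨fun g => (S g).toMul, sm1_of_const_base (hS.comp Additive.toMul), funext fun gh => ?_⟩
  obtain ⟨g, h⟩ := gh
  have h1 := congrArg Additive.toMul
    (hfin (show primeLocalGaloisGroup q from g) (show primeLocalGaloisGroup q from h))
  rw [finrank_fld hV, Subgroup.index_eq_card, Nat.card_eq_fintype_card, Class.delta1_apply]
  exact h1

variable (p) in
/-- Restriction to the whole group seen as a subgroup is injective. -/
def topMap : H2c Levels.all (primeLocalToGlobal q) (muLoc p q) →ₗ[ZMod p]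
    H2c Levels.all (rV q ⊤) (muV p q ⊤) :=
  mapH2 (⊤ : Subgroup (primeLocalGaloisGroup q)).subtype (isLevelHom_of_eq _ fun _ => rfl)
    LinearMap.id fun _ _ => rfl

lemma topMap_injective : Function.Injective (topMap (q := q) p) := by
  rw [injective_iff_map_eq_zero]
  intro y hy
  obtain ⟨C, rfl⟩ := Submodule.mkQ_surjective _ y
  obtain ⟨b, ⟨F, hF, hb⟩, e⟩ := (Submodule.Quotient.mk_eq_zero _).1 hy
  exact (Submodule.Quotient.mk_eq_zero _).2
    ⟨fun g => b ⟨g, trivial⟩, ⟨F, hF, fun g s hs => hb ⟨g, trivial⟩ ⟨s, trivial⟩ hs⟩,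
      funext fun gh => congrFun e (⟨gh.1, trivial⟩, ⟨gh.2, trivial⟩)⟩

theorem sum_pushH2_surjective (hV : IsLocLevel q V)
    (σ : funRep (muLoc p q) V →ₗ[ZMod p] muLoc p q)
    (hσ : ∀ f, σ f = ∑ᶠ x, f x)
    (hσe : ∀ g f, σ ((funRep (muLoc p q) V).ρ g f) = (muLoc p q).ρ g (σ f)) :
    Function.Surjective (pushH2 (L := Levels.all) (r := primeLocalToGlobal q) σ hσe) := by
  have h1 := finrank_H2 (p := p) hV
  have := Module.nontrivial_of_finrank_eq_succ h1
  obtain ⟨y, hy⟩ := exists_ne (0 : H2c Levels.all (rV q V) (muV p q V))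
  obtain ⟨⟨c, hc⟩, rfl⟩ := Submodule.mkQ_surjective _ y
  let Z : ↥(Z2 Levels.all (primeLocalToGlobal q) (funRep (muLoc p q) V)) :=
    ⟨shapiroInv₂ (M := muLoc p q) c, shapiroInv₂_mem_cocycles₂ (M := muLoc p q) hc.1,
      shapiroInv₂_isConst₂ Levels.normalBasis_all hV hc.2⟩
  set Y := H2cπ _ _ _ Z
  have hne : pushH2 (L := Levels.all) (r := primeLocalToGlobal q) σ hσe Y ≠ 0 := fun h0 => by
    obtain ⟨b, hb, e⟩ := (Submodule.Quotient.mk_eq_zero _).1 h0
    exact sum_ne_zero hV hc hy hb fun g h => (congrFun e (g, h)).trans (hσ _)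
  have htop : IsLocLevel q (⊤ : Subgroup (primeLocalGaloisGroup q)) :=
    ⟨⊥, Levels.all.bot, fun _ _ => trivial⟩
  intro x
  obtain ⟨t, ht⟩ := exists_smul_eq_of_finrank_eq_one (finrank_H2 (p := p) htop)
    (fun h => hne (topMap_injective (h.trans (map_zero _).symm))) (topMap p x)
  refine ⟨t • Y, topMap_injective ?_⟩
  rw [map_smul, map_smul, ht]

end Fermat.Agent.CFT.LocalInst
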