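import Fermat.Agent.CFT.Setup

/-!
Multiplicative groups and norms of the local fields inside `Omega q`.
-/

set_option autoImplicit false

open CategoryTheory groupCohomology ExtCitation

noncomputable section

namespace Fermat.Agent.CFT

/-- Level subgroups of the local group. -/
abbrev IsLocLevel (q : Nat.Primes) (V : Subgroup (primeLocalGaloisGroup q)) : Prop :=
  IsLevelSubgroup Levels.all (primeLocalToGlobal q) V

/-- The units of the fixed field of `V`. -/
def locUnits (q : Nat.Primes) (V : Subgroup (primeLocalGaloisGroup q)) :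
    Subgroup (Omega q)ˣ where
  carrier := {a | ∀ τ ∈ V, locAct q τ (a : Omega q) = a}
  one_mem' := fun τ _ => by simp
  mul_mem' := fun {a b} ha hb τ hτ => by simp [ha τ hτ, hb τ hτ]
  inv_mem' := fun {a} ha τ hτ => by simp [ha τ hτ]

/-- The norm from the fixed field of `V'` to that of `V`. -/
def locNorm (q : Nat.Primes) (V' V : Subgroup (primeLocalGaloisGroup q)) (a : (Omega q)ˣ) :
    Omega q :=
  ∏ᶠ x : ↥V ⧸ V'.subgroupOf V, locAct q ((Quotient.out x : ↥V) : primeLocalGaloisGroup q) a

/-- The norm subgroup of `V' ≤ V`. -/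
def locNormSubgroup (q : Nat.Primes) (V' V : Subgroup (primeLocalGaloisGroup q)) :
    Subgroup (Omega q)ˣ :=
  Subgroup.closure {b | ∃ a ∈ locUnits q V', (b : Omega q) = locNorm q V' V a}

variable {p : ℕ} [Fact p.Prime]

variable (p) in
/-- `μ_p` on `V`. -/
abbrev muV (q : Nat.Primes) (V : Subgroup (primeLocalGaloisGroup q)) : Rep (ZMod p) V :=
  Rep.res V.subtype (muLoc p q)

variable (p) in
/-- The level structure on `V`. -/
abbrev rV (q : Nat.Primes) (V : Subgroup (primeLocalGaloisGroup q)) : ↥V →* GQ :=
  (primeLocalToGlobal q).comp V.subtype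

end Fermat.Agent.CFT
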