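import Mathlib.Analysis.Normed.Field.Krasner
import Mathlib.FieldTheory.PrimitiveElement
import Mathlib.FieldTheory.Galois.Infinite
import Fermat.Agent.CFT.Setup
import Fermat.Agent.CFT.Cohomology.Basic
import Fermat.Agent.Galois.PadicPlace

/-!
Levels of the local Galois group and their fixed fields: Krasner, finite index, closedness.
-/

set_option autoImplicit false
set_option linter.unusedSectionVars false

open ExtCitation

noncomputable section

namespace Fermat.Agent.CFT.LocalInst

variable (q : Nat.Primes)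

/-- The local Galois group, as a group of automorphisms. -/
abbrev Gq := Omega q ≃ₐ[ℚ_[(q : ℕ)]] Omega q

/-- A subgroup of `primeLocalGaloisGroup q`, seen in `Gq q`. -/
abbrev galSub (V : Subgroup (primeLocalGaloisGroup q)) : Subgroup (Gq q) := V

variable {q}

lemma apply_padicEmbedding (τ : Gq q) (x : AlgebraicClosure ℚ) :
    τ (padicEmbedding (q : ℕ) x) = padicEmbedding (q : ℕ) (primeLocalToGlobal q τ x) :=
  (padicEmbedding_localGaloisToGlobal (q : ℕ) τ x).symm

/-- Krasner. -/
theorem isLevel_fixingSubgroup (E : IntermediateField ℚ_[(q : ℕ)] (Omega q))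
    [FiniteDimensional ℚ_[(q : ℕ)] E] :
    IsLevelSubgroup Levels.all (primeLocalToGlobal q)
      (E.fixingSubgroup : Subgroup (Omega q ≃ₐ[ℚ_[(q : ℕ)]] Omega q)) := by
  classical
  obtain ⟨α, hα⟩ := Field.exists_primitive_element ℚ_[(q : ℕ)] E
  set x : Omega q := (α : Omega q)
  have hint : IsIntegral ℚ_[(q : ℕ)] x := Algebra.IsIntegral.isIntegral x
  set T := ((minpoly ℚ_[(q : ℕ)] x).rootSet (Omega q)).toFinset.filter (fun z => x ≠ z)
  obtain ⟨ε, hε, hεT⟩ : ∃ ε > 0, ∀ z ∈ T, ε ≤ ‖x - z‖ := by
    rcases T.eq_empty_or_nonempty with hT | hT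
    · exact ⟨1, one_pos, fun z hz => by simp [hT] at hz⟩
    · refine ⟨T.inf' hT fun z => ‖x - z‖, (Finset.lt_inf'_iff hT).2 fun z hz => ?_,
        fun z hz => Finset.inf'_le _ hz⟩
      exact norm_pos_iff.2 (sub_ne_zero.2 (Finset.mem_filter.1 hz).2)
  obtain ⟨y, ⟨a, rfl⟩, ha⟩ :=
    Metric.mem_closure_iff.1 (Galois.padicEmbedding_denseRange (q : ℕ) x) ε hε
  rw [dist_eq_norm] at ha
  have hyint : IsIntegral ℚ_[(q : ℕ)] (padicEmbedding (q : ℕ) a) := Algebra.IsIntegral.isIntegral _
  have hmem : x ∈ IntermediateField.adjoin ℚ_[(q : ℕ)] {padicEmbedding (q : ℕ) a} := by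
    refine IsKrasner.krasner (Algebra.IsSeparable.isSeparable ℚ_[(q : ℕ)] x)
      (IsAlgClosed.splits _) hyint fun z hz hne => ha.trans_le (hεT z ?_)
    exact Finset.mem_filter.2 ⟨Set.mem_toFinset.2 ((Polynomial.mem_rootSet_of_ne
      (minpoly.ne_zero hint)).2 hz.aeval_eq_zero), hne⟩
  refine ⟨IntermediateField.adjoin ℚ {a},
    (IntermediateField.adjoin.finiteDimensional (Algebra.IsIntegral.isIntegral a) :
      FiniteDimensional ℚ _), fun τ hτ => ?_⟩
  rw [IntermediateField.mem_fixingSubgroup_iff] at hτ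
  suffices main : ∀ σ : Gq q, primeLocalToGlobal q σ a = a → σ ∈ E.fixingSubgroup from
    main τ (hτ a (IntermediateField.mem_adjoin_simple_self ℚ a))
  intro σ hσ
  have hfix : σ (padicEmbedding (q : ℕ) a) = padicEmbedding (q : ℕ) a :=
    (apply_padicEmbedding σ a).trans (congrArg _ hσ)
  have hx : σ x = x := by
    have hle : IntermediateField.adjoin ℚ_[(q : ℕ)] {padicEmbedding (q : ℕ) a}
        ≤ IntermediateField.fixedField (Subgroup.zpowers σ) := by
      rw [IntermediateField.le_iff_le, Subgroup.zpowers_le, IntermediateField.mem_fixingSubgroup_iff]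
      intro z hz
      induction hz using IntermediateField.adjoin_induction with
      | mem z hz => rw [Set.mem_singleton_iff.1 hz]; exact hfix
      | algebraMap c => exact σ.commutes c
      | add u v _ _ hu hv => rw [map_add, hu, hv]
      | inv u _ hu => rw [map_inv₀, hu]
      | mul u v _ _ hu hv => rw [map_mul, hu, hv]
    exact (IntermediateField.mem_fixedField_iff _ _).1 (hle hmem) _ (Subgroup.mem_zpowers _)
  have key : ∀ w : E, w ∈ IntermediateField.adjoin ℚ_[(q : ℕ)] {α} → σ (w : Omega q) = w := by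
    intro w hw
    induction hw using IntermediateField.adjoin_induction with
    | mem w hw => rw [Set.mem_singleton_iff.1 hw]; exact hx
    | algebraMap c => exact σ.commutes c
    | add u v _ _ hu hv => simp [hu, hv]
    | inv u _ hu => simp [hu]
    | mul u v _ _ hu hv => simp [hu, hv]
  exact (IntermediateField.mem_fixingSubgroup_iff E σ).2 fun z hz => key ⟨z, hz⟩ (hα ▸ trivial)

variable {V : Subgroup (primeLocalGaloisGroup q)}

theorem finiteIndex_of_level (hV : IsLevelSubgroup Levels.all (primeLocalToGlobal q) V) :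
    V.FiniteIndex :=
  have := hV.finite_quotient
  Subgroup.finiteIndex_of_finite_quotient

lemma exists_fixingSubgroup_le (hV : IsLevelSubgroup Levels.all (primeLocalToGlobal q) V) :
    ∃ N : IntermediateField ℚ_[(q : ℕ)] (Omega q), FiniteDimensional ℚ_[(q : ℕ)] N ∧
      N.fixingSubgroup ≤ galSub q V := by
  obtain ⟨F, hF, hFV⟩ := hV
  have : FiniteDimensional ℚ F := hF
  let b := Module.finBasis ℚ F
  have : Finite (Set.range fun i => padicEmbedding (q : ℕ) ((b i : F) : AlgebraicClosure ℚ)) :=
    (Set.finite_range _).to_subtype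
  refine ⟨IntermediateField.adjoin ℚ_[(q : ℕ)]
    (Set.range fun i => padicEmbedding (q : ℕ) ((b i : F) : AlgebraicClosure ℚ)),
    IntermediateField.finiteDimensional_adjoin fun x _ => Algebra.IsIntegral.isIntegral x,
    fun τ hτ => hFV τ ?_⟩
  rw [IntermediateField.mem_fixingSubgroup_iff] at hτ ⊢
  intro z hz
  have key : ∀ i, primeLocalToGlobal q τ ((b i : F) : AlgebraicClosure ℚ) = (b i : F) := fun i => by
    apply (padicEmbedding (q : ℕ)).injective
    exact (apply_padicEmbedding τ _).symm.trans
      (hτ _ (IntermediateField.subset_adjoin _ _ ⟨i, rfl⟩))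
  have h : ∀ y : F, primeLocalToGlobal q τ (y : AlgebraicClosure ℚ) = y := fun y => by
    rw [← b.sum_repr y]
    simp only [IntermediateField.coe_sum, map_sum]
    refine Finset.sum_congr rfl fun i _ => ?_
    rw [show ((b.repr y i • b i : F) : AlgebraicClosure ℚ) = b.repr y i • ((b i : F) : AlgebraicClosure ℚ) from rfl,
      Algebra.smul_def, map_mul, AlgEquiv.commutes, key]
  exact h ⟨z, hz⟩

/-- The fixed field of a level subgroup. -/
abbrev fld (V : Subgroup (primeLocalGaloisGroup q)) : IntermediateField ℚ_[(q : ℕ)] (Omega q) :=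
  IntermediateField.fixedField (galSub q V)

theorem fixingSubgroup_fld (hV : IsLevelSubgroup Levels.all (primeLocalToGlobal q) V) :
    (fld V).fixingSubgroup = galSub q V := by
  obtain ⟨N, hN, hle⟩ := exists_fixingSubgroup_le hV
  have hopen : IsOpen (galSub q V : Set (Gq q)) :=
    Subgroup.isOpen_mono hle N.fixingSubgroup_isOpen
  exact InfiniteGalois.fixingSubgroup_fixedField ⟨galSub q V, Subgroup.isClosed_of_isOpen _ hopen⟩

theorem finiteDimensional_fld (hV : IsLevelSubgroup Levels.all (primeLocalToGlobal q) V) :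
    FiniteDimensional ℚ_[(q : ℕ)] (fld V) := by
  obtain ⟨N, hN, hle⟩ := exists_fixingSubgroup_le hV
  have : fld V ≤ N := by
    rw [← InfiniteGalois.fixedField_fixingSubgroup N]
    exact IntermediateField.fixedField_antitone hle
  exact FiniteDimensional.of_injective (IntermediateField.inclusion this).toLinearMap
    (IntermediateField.inclusion_injective this)

theorem finrank_fld (hV : IsLevelSubgroup Levels.all (primeLocalToGlobal q) V) :
    Module.finrank ℚ_[(q : ℕ)] (fld V) = V.index := by
  rw [IntermediateField.finrank_eq_fixingSubgroup_index, fixingSubgroup_fld hV]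
  rfl

lemma mem_fld_iff {x : Omega q} : x ∈ fld V ↔ ∀ τ ∈ V, locAct q τ x = x :=
  IntermediateField.mem_fixedField_iff _ _

end Fermat.Agent.CFT.LocalInst
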