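import Fermat.Agent.CFT.Local.RamDegree
import Fermat.Agent.CFT.Local.Frobenius
import Fermat.Agent.CFT.Local.CyclicStep

/-!
Automorphisms fixing all the unramified extensions act trivially on residues.
-/

set_option autoImplicit false
set_option linter.unusedSectionVars false

noncomputable section

namespace Fermat.Agent.CFT.LocalInst

open IsLocalRing Fermat.Agent.CFT.Local Polynomial

variable {K Ω : Type} [NontriviallyNormedField K] [IsUltrametricDist K] [ProperSpace K]
  [NontriviallyNormedField Ω] [IsUltrametricDist Ω] [NormedAlgebra K Ω] [IsAlgClosed Ω]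
  [Algebra.IsAlgebraic K Ω]

lemma norm_galois_top (τ : Gal(Ω/K)) (x : Ω) : ‖τ x‖ = ‖x‖ := by
  rw [NormedAlgebra.norm_eq_spectralNorm K (τ x), NormedAlgebra.norm_eq_spectralNorm K x]
  exact (spectralNorm_eq_of_equiv τ x).symm

/-- Every integral element is congruent to `0` or to a root of unity of order prime to `q`. -/
theorem exists_root_congr {y : Ω} (hy : ‖y‖ ≤ 1) :
    ‖y‖ < 1 ∨ ∃ (n : ℕ) (ζ : Ω), n ≠ 0 ∧ ζ ^ rootOrder K n = 1 ∧ ‖y - ζ‖ < 1 := by
  classical
  rcases lt_or_eq_of_le hy with h | h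
  · exact Or.inl h
  refine Or.inr ?_
  set E := IntermediateField.adjoin K {y}
  have : FiniteDimensional K E :=
    IntermediateField.adjoin.finiteDimensional (Algebra.IsIntegral.isIntegral y)
  have := FiniteDimensional.proper K E
  set f := inertiaDeg K E
  have hf : f ≠ 0 := (inertiaDeg_pos K E).ne'
  let yE : intRing E := ⟨⟨y, IntermediateField.mem_adjoin_simple_self K y⟩, hy⟩
  let := Fintype.ofFinite (ResidueField (intRing E))
  set z := residue (intRing Ω) ⟨y, hy⟩
  have hz : z ^ resCard K ^ f = z := by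
    have h1 : residue (intRing E) yE ^ resCard E = residue (intRing E) yE := by
      rw [resCard, Nat.card_eq_fintype_card, FiniteField.pow_card]
    have h2 := congrArg (resMap E Ω) h1
    rw [map_pow, resCard_eq_pow K E] at h2
    exact h2
  have hz0 : z ≠ 0 := by
    rw [Ne, residue_intRing_eq_zero_iff]
    show ¬‖y‖ < 1
    rw [h]
    exact lt_irrefl _
  have hzm : z ^ rootOrder K f = 1 := mul_right_cancel₀ hz0 (by
    rw [← pow_succ, one_mul, rootOrder,
      Nat.sub_add_cancel (Nat.one_le_pow _ _ (zero_lt_one.trans (one_lt_resCard K))), hz])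
  obtain ⟨ζ, hζ⟩ := exists_root (K := K) (Ω := Ω) f hf
  have hpow : ∀ i, (ζ ^ i) ^ rootOrder K f = 1 := fun i => by
    rw [pow_right_comm, hζ.pow_eq_one, one_pow]
  set P : (ResidueField (intRing Ω))[X] := X ^ rootOrder K f - C 1
  have hP : P ≠ 0 := X_pow_sub_C_ne_zero (rootOrder_pos K hf) 1
  set s := (Finset.range (rootOrder K f)).image
    fun i => residue (intRing Ω) (rootInt hf (hpow i))
  have hs : s.card = rootOrder K f := by
    rw [Finset.card_image_of_injOn, Finset.card_range]
    intro i hi j hj hij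
    exact hζ.pow_inj (Finset.mem_range.1 hi) (Finset.mem_range.1 hj)
      (eq_of_residue_eq hf (hpow i) (hpow j) hij)
  have hsub : (insert z s).val ⊆ P.roots := fun w hw => by
    rw [mem_roots hP, IsRoot.def, eval_sub, eval_pow, eval_X, eval_C, sub_eq_zero]
    rcases Finset.mem_insert.1 (Finset.mem_def.2 hw) with rfl | hw
    · exact hzm
    · obtain ⟨i, -, rfl⟩ := Finset.mem_image.1 hw
      rw [← map_pow, show rootInt hf (hpow i) ^ rootOrder K f = 1 from Subtype.ext (hpow i), map_one]
  have hcard := Polynomial.card_le_degree_of_subset_roots hsub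
  rw [natDegree_X_pow_sub_C] at hcard
  have hzs : z ∈ s := by
    by_contra hzs
    rw [Finset.card_insert_of_notMem hzs, hs] at hcard
    omega
  obtain ⟨i, -, hi⟩ := Finset.mem_image.1 hzs
  exact ⟨f, ζ ^ i, hf, hpow i, (residue_intRing_eq_iff ⟨y, hy⟩ _).1 hi.symm⟩

/-- Fixing every unramified extension implies acting trivially on residues. -/
theorem norm_sub_lt_of_fix {τ : Gal(Ω/K)} (hτ : ∀ n, n ≠ 0 → τ ∈ (unrField K Ω n).fixingSubgroup)
    {x : Ω} (hx : ‖x‖ ≤ 1) : ‖τ x - x‖ < 1 := by
  rcases exists_root_congr (K := K) hx with h | ⟨n, ζ, hn, hζ, h⟩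
  · rw [sub_eq_add_neg]
    exact (IsUltrametricDist.norm_add_le_max _ _).trans_lt
      (max_lt ((norm_galois_top τ x).trans_lt h) ((norm_neg x).trans_lt h))
  · have hfix : τ ζ = ζ := (IntermediateField.mem_fixingSubgroup_iff _ _).1 (hτ n hn) ζ (mem_unrField hζ)
    rw [show τ x - x = τ (x - ζ) + -(x - ζ) by rw [map_sub, hfix]; ring]
    exact (IsUltrametricDist.norm_add_le_max _ _).trans_lt
      (max_lt ((norm_galois_top τ _).trans_lt h) ((norm_neg _).trans_lt h))

/-- An extension fixed by the inertia group is unramified. -/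
theorem ramIdx_eq_one_of_fix [IsGalois K Ω] (L : IntermediateField K Ω) [FiniteDimensional K L]
    (h : ∀ τ : Gal(Ω/K), (∀ x : Ω, ‖x‖ ≤ 1 → ‖τ x - x‖ < 1) → τ ∈ L.fixingSubgroup) :
    (have := FiniteDimensional.proper K L; ramIdx K L) = 1 := by
  set M := ⨆ n : ℕ, unrField K Ω (n + 1)
  have hle : L ≤ M := by
    rw [← InfiniteGalois.fixedField_fixingSubgroup L, ← InfiniteGalois.fixedField_fixingSubgroup M]
    refine IntermediateField.fixedField_antitone fun τ hτ => h τ fun x hx => ?_
    refine norm_sub_lt_of_fix (fun n hn => ?_) hx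
    obtain ⟨m, rfl⟩ := Nat.exists_eq_succ_of_ne_zero hn
    exact IntermediateField.fixingSubgroup_antitone (le_iSup (fun n => unrField K Ω (n + 1)) m) hτ
  have hdir : Directed (· ≤ ·) fun n : ℕ => unrField K Ω (n + 1) := fun a b =>
    ⟨(a + 1) * (b + 1) - 1, by
      show unrField K Ω (a + 1) ≤ unrField K Ω ((a + 1) * (b + 1) - 1 + 1)
      rw [Nat.sub_add_cancel (Nat.mul_pos a.succ_pos b.succ_pos)]
      exact unrField_mono (dvd_mul_right _ _), by
      show unrField K Ω (b + 1) ≤ unrField K Ω ((a + 1) * (b + 1) - 1 + 1)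
      rw [Nat.sub_add_cancel (Nat.mul_pos a.succ_pos b.succ_pos)]
      exact unrField_mono (dvd_mul_left _ _)⟩
  let b := Module.finBasis K L
  have hm : ∀ i, ∃ n, ((b i : L) : Ω) ∈ unrField K Ω (n + 1) := fun i => by
    have hxM : ((b i : L) : Ω) ∈ M := hle (b i).2
    rw [← SetLike.mem_coe, IntermediateField.coe_iSup_of_directed hdir] at hxM
    exact Set.mem_iUnion.1 hxM
  choose g hg using hm
  obtain ⟨N, hN⟩ := hdir.finset_le (Finset.univ.image g)
  have hLN : L ≤ unrField K Ω (N + 1) := fun x hx => by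
    rw [show x = ((∑ i, b.repr ⟨x, hx⟩ i • b i : L) : Ω) by rw [b.sum_repr]]
    rw [IntermediateField.coe_sum]
    exact sum_mem fun i _ => IntermediateField.smul_mem _
      (hN _ (Finset.mem_image_of_mem g (Finset.mem_univ i)) (hg i))
  have := FiniteDimensional.proper K L
  obtain ⟨c, hc, hxc⟩ := exists_norm_eq_base (n := N + 1)
    (x := IntermediateField.inclusion hLN (unif L))
    fun h0 => unif_ne_zero L (IntermediateField.inclusion_injective hLN (h0.trans (map_zero _).symm))
  have h1 : ord (algebraMap K L c) = 1 := ord_eq_of_norm (by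
    rw [zpow_one, norm_algebraMap']
    exact hxc.symm)
  rw [ord_algebraMap K L hc] at h1
  exact_mod_cast Int.eq_one_of_mul_eq_one_right (Int.natCast_nonneg _) h1

end Fermat.Agent.CFT.LocalInst
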