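import Fermat.Agent.CFT.LocalInst.Defs
import Fermat.Agent.CFT.LocalInst.Fields
import Fermat.Agent.CFT.LocalInst.Residue

/-!
The norm index of a cyclic step of local fields inside `Omega q`, and unit norms.
-/

set_option autoImplicit false
set_option linter.unusedSectionVars false

open ExtCitation
open Fermat.Agent.CFT.Local (normGroup normGroup_index ramIdx unit_norm_of_unramified)

noncomputable section

namespace Fermat.Agent.CFT.LocalInst

variable {q : Nat.Primes} {V V' : Subgroup (primeLocalGaloisGroup q)}

lemma level_mono (hV' : IsLocLevel q V') (hle : V' ≤ V) : IsLocLevel q V := by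
  obtain ⟨F, hF, h⟩ := hV'
  exact ⟨F, hF, fun s hs => hle (h s hs)⟩

/-- The inclusion of the units of the fixed field. -/
def fldUnits (V : Subgroup (primeLocalGaloisGroup q)) : (fld V)ˣ →* (Omega q)ˣ :=
  Units.map ((fld V).val : fld V →* Omega q)

lemma fldUnits_injective (V : Subgroup (primeLocalGaloisGroup q)) : Function.Injective (fldUnits V) :=
  Units.map_injective Subtype.val_injective

lemma fldUnits_range (V : Subgroup (primeLocalGaloisGroup q)) :
    (fldUnits V).range = locUnits q V := by
  ext a
  constructor
  · rintro ⟨x, rfl⟩ τ hτ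
    exact mem_fld_iff.1 (x : fld V).2 τ hτ
  · intro ha
    exact ⟨Units.mk0 ⟨(a : Omega q), mem_fld_iff.2 ha⟩ fun h => a.ne_zero (congrArg Subtype.val h),
      Units.ext rfl⟩

/-- The isomorphism of `V` with the absolute Galois group of its fixed field. -/
def galEquiv (hV : IsLocLevel q V) : galSub q V ≃* Gal(Omega q/fld V) :=
  (MulEquiv.subgroupCongr (fixingSubgroup_fld hV).symm).trans (fld V).fixingSubgroupEquiv

lemma galEquiv_apply (hV : IsLocLevel q V) (v : galSub q V) (x : Omega q) :
    galEquiv hV v x = (v : Gq q) x := rfl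

variable (hV' : IsLocLevel q V') (hle : V' ≤ V)

/-- The upper field over the lower one. -/
def extField : IntermediateField (fld V) (Omega q) :=
  IntermediateField.extendScalars (F := fld V) (E := fld V')
    (IntermediateField.fixedField_antitone (show galSub q V' ≤ galSub q V from hle))

lemma mem_extField {x : Omega q} : x ∈ extField hle ↔ x ∈ fld V' := Iff.rfl

include hV' in
lemma galEquiv_mem_iff (v : galSub q V) :
    galEquiv (level_mono hV' hle) v ∈ (extField hle).fixingSubgroup ↔ (v : Gq q) ∈ galSub q V' := by
  rw [IntermediateField.mem_fixingSubgroup_iff, ← fixingSubgroup_fld hV',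
    IntermediateField.mem_fixingSubgroup_iff]
  rfl

include hV' in
lemma extField_finite : FiniteDimensional (fld V) (extField hle) := by
  have := finiteDimensional_fld (level_mono hV' hle)
  have := finiteDimensional_fld hV'
  have : FiniteDimensional ℚ_[(q : ℕ)] (extField hle) := finiteDimensional_fld hV'
  exact Module.Finite.of_restrictScalars_finite ℚ_[(q : ℕ)] (fld V) (extField hle)

lemma index_map_galEquiv (hV : IsLocLevel q V) (H : Subgroup (galSub q V)) :
    (H.map (galEquiv hV).toMonoidHom).index = H.index :=
  Subgroup.index_map_of_bijective (galEquiv hV).bijective H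

include hV' in
lemma extField_fixing :
    ((galSub q V').subgroupOf (galSub q V)).map (galEquiv (level_mono hV' hle)).toMonoidHom
      = (extField hle).fixingSubgroup := by
  ext g
  obtain ⟨v, rfl⟩ := (galEquiv (level_mono hV' hle)).surjective g
  rw [galEquiv_mem_iff hV' hle]
  exact ⟨fun ⟨w, hw, hwe⟩ => (galEquiv (level_mono hV' hle)).injective hwe ▸ hw,
    fun h => ⟨v, h, rfl⟩⟩

include hV' in
lemma extField_isGalois (hn : (V'.subgroupOf V).Normal) : IsGalois (fld V) (extField hle) := by
  rw [← InfiniteGalois.normal_iff_isGalois, ← extField_fixing hV' hle]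
  exact Subgroup.Normal.map hn _ (galEquiv (level_mono hV' hle)).surjective

include hV' in
lemma finrank_extField : Module.finrank (fld V) (extField hle) = V'.relIndex V := by
  rw [IntermediateField.finrank_eq_fixingSubgroup_index, ← extField_fixing hV' hle,
    index_map_galEquiv]
  rfl

variable {p : ℕ} [Fact p.Prime]

include hV' in
lemma exists_generator (hn : (V'.subgroupOf V).Normal) (hidx : V'.relIndex V = p) :
    (have := extField_finite hV' hle; have := extField_isGalois hV' hle hn;
      ∃ σ : Gal((extField hle)/(fld V)), ∀ τ, τ ∈ Subgroup.zpowers σ) := by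
  have := extField_finite hV' hle
  have := extField_isGalois hV' hle hn
  have hc : Nat.card Gal((extField hle)/(fld V)) = p := by
    rw [IsGalois.card_aut_eq_finrank, finrank_extField hV' hle, hidx]
  have : IsCyclic Gal((extField hle)/(fld V)) := isCyclic_of_prime_card hc
  exact IsCyclic.exists_generator

include hV' in
theorem locNorm_eq (hn : (V'.subgroupOf V).Normal) (y : (extField hle)ˣ) :
    (have := extField_finite hV' hle;
      locNorm q V' V (Units.map ((extField hle).val : extField hle →* Omega q) y)
        = ((Algebra.norm (fld V) (y : extField hle) : fld V) : Omega q)) := by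
  classical
  have := extField_finite hV' hle
  have := extField_isGalois hV' hle hn
  set e := galEquiv (level_mono hV' hle)
  have hcoe : ∀ (g : Gal(Omega q/fld V)) (x : extField hle),
      ((AlgEquiv.restrictNormalHom (extField hle) g x : extField hle) : Omega q) = g x :=
    fun g x => AlgEquiv.restrictNormal_commutes g (extField hle) x
  let φ : galSub q V →* Gal((extField hle)/(fld V)) :=
    (AlgEquiv.restrictNormalHom (extField hle)).comp e.toMonoidHom
  have hker : φ.ker = (galSub q V').subgroupOf (galSub q V) := by
    ext v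
    rw [MonoidHom.mem_ker, MonoidHom.comp_apply, Fermat.Agent.CFT.Local.restrict_eq_one_iff,
      Subgroup.mem_subgroupOf]
    exact galEquiv_mem_iff hV' hle v
  have hsurj : Function.Surjective φ :=
    (Fermat.Agent.CFT.Local.restrictHom_surjective (extField hle)).comp e.surjective
  let ψ : ↥V ⧸ V'.subgroupOf V → Gal((extField hle)/(fld V)) := fun x => φ (Quotient.out x : ↥V)
  have hψ : Function.Bijective ψ := by
    constructor
    · intro a b hab
      have h1 : ((Quotient.out a : galSub q V))⁻¹ * (Quotient.out b : galSub q V) ∈ φ.ker := by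
        rw [MonoidHom.mem_ker, map_mul, map_inv]
        exact inv_mul_eq_one.2 hab
      rw [hker] at h1
      rw [← QuotientGroup.out_eq' a, ← QuotientGroup.out_eq' b]
      exact QuotientGroup.eq.2 h1
    · intro g
      obtain ⟨v, rfl⟩ := hsurj g
      refine ⟨QuotientGroup.mk (s := V'.subgroupOf V) (v : ↥V), ?_⟩
      have h1 : ((Quotient.out (QuotientGroup.mk (s := V'.subgroupOf V) (v : ↥V)) : galSub q V))⁻¹ * v
          ∈ φ.ker := by
        rw [hker]
        exact QuotientGroup.eq.1 (QuotientGroup.out_eq' (QuotientGroup.mk (s := V'.subgroupOf V) (v : ↥V)))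
      rw [MonoidHom.mem_ker, map_mul, map_inv] at h1
      exact inv_mul_eq_one.1 h1
  rw [← IntermediateField.coe_val (fld V),
    show ((fld V).val (Algebra.norm (fld V) (y : extField hle)) : Omega q)
      = ((algebraMap (fld V) (extField hle) (Algebra.norm (fld V) (y : extField hle)) :
          extField hle) : Omega q) from rfl,
    Algebra.norm_eq_prod_automorphisms, ← IntermediateField.coe_val (extField hle), map_prod, locNorm,
    ← finprod_eq_prod_of_fintype]
  refine finprod_eq_of_bijective ψ hψ fun x => ?_
  exact ((hcoe (e (Quotient.out x : ↥V)) (y : extField hle)).trans (galEquiv_apply _ _ _)).symm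

include hV' hle in
theorem locNorm_index (hn : (V'.subgroupOf V).Normal) (hidx : V'.relIndex V = p) :
    (locNormSubgroup q V' V).relIndex (locUnits q V) = p := by
  have := extField_finite hV' hle
  have := extField_isGalois hV' hle hn
  have := finiteDimensional_fld (level_mono hV' hle)
  have := FiniteDimensional.proper ℚ_[(q : ℕ)] (fld V)
  have := FiniteDimensional.proper (fld V) (extField hle)
  obtain ⟨σ, hσ⟩ := exists_generator hV' hle hn hidx
  have hmap : locNormSubgroup q V' V = (normGroup (fld V) (extField hle)).map (fldUnits V) := by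
    refine le_antisymm ?_ ?_
    · rw [locNormSubgroup, Subgroup.closure_le]
      rintro b ⟨a, ha, hb⟩
      have haL : (a : Omega q) ∈ extField hle := mem_fld_iff.2 ha
      let y : (extField hle)ˣ :=
        Units.mk0 ⟨(a : Omega q), haL⟩ fun h => a.ne_zero (congrArg Subtype.val h)
      refine ⟨_, ⟨y, rfl⟩, Units.ext ?_⟩
      rw [hb]
      refine Eq.trans ?_ (congrArg (locNorm q V' V) (Units.ext (show (y : Omega q) = a from rfl)) :)
      exact (locNorm_eq hV' hle hn y).symm
    · rintro _ ⟨_, ⟨y, rfl⟩, rfl⟩
      refine Subgroup.subset_closure ⟨Units.map ((extField hle).val : extField hle →* Omega q) y,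
        fun τ hτ => ?_, (locNorm_eq hV' hle hn y).symm⟩
      exact mem_fld_iff.1 (show ((y : extField hle) : Omega q) ∈ fld V' from (y : extField hle).2) τ hτ
  rw [hmap, ← fldUnits_range, MonoidHom.range_eq_map,
    Subgroup.relIndex_map_map_of_injective _ _ (fldUnits_injective V), Subgroup.relIndex_top_right,
    normGroup_index (fld V) (extField hle) σ hσ, finrank_extField hV' hle, hidx]

include hV' hle in
theorem locNorm_unit (hn : (V'.subgroupOf V).Normal) (hidx : V'.relIndex V = p)
    (hI : ∀ τ ∈ V, (∀ x : Omega q, ‖x‖ ≤ 1 → ‖locAct q τ x - x‖ < 1) → τ ∈ V')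
    {u : (Omega q)ˣ} (hu : u ∈ locUnits q V) (hu1 : ‖(u : Omega q)‖ = 1) :
    u ∈ locNormSubgroup q V' V := by
  have := extField_finite hV' hle
  have := extField_isGalois hV' hle hn
  have := finiteDimensional_fld (level_mono hV' hle)
  have := FiniteDimensional.proper ℚ_[(q : ℕ)] (fld V)
  have := FiniteDimensional.proper (fld V) (extField hle)
  obtain ⟨σ, hσ⟩ := exists_generator hV' hle hn hidx
  have he : ramIdx (fld V) (extField hle) = 1 := ramIdx_eq_one_of_fix (extField hle) fun τ hτ => by
    obtain ⟨v, rfl⟩ := (galEquiv (level_mono hV' hle)).surjective τ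
    exact (galEquiv_mem_iff hV' hle v).2 (hI (v : Gq q) v.2 hτ)
  obtain ⟨y, hy, hyn⟩ := unit_norm_of_unramified (fld V) (extField hle) σ hσ he
    (x := (⟨(u : Omega q), mem_fld_iff.2 hu⟩ : fld V)) hu1
  have hy0 : y ≠ 0 := fun h => by simp [h] at hy
  refine Subgroup.subset_closure
    ⟨Units.map ((extField hle).val : extField hle →* Omega q) (Units.mk0 y hy0), fun τ hτ => ?_, ?_⟩
  · exact mem_fld_iff.1 (show (y : Omega q) ∈ fld V' from y.2) τ hτ
  · rw [locNorm_eq hV' hle hn, Units.val_mk0, hyn]

end Fermat.Agent.CFT.LocalInst
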