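import Fermat.Agent.CFT.LocalInst.PowIndex

/-!
Kummer theory on the local fields inside `Omega q` that contain `ζ_p`: the count of characters and the
non-degeneracy of the symbol.
-/

set_option autoImplicit false
set_option linter.unusedSectionVars false

open CategoryTheory groupCohomology ExtCitation

noncomputable section

namespace Fermat.Agent.CFT.LocalInst

open Fermat.Agent.CFT.Local (IsSm1 IsSm2 Br brCls smZ2)

variable {q : Nat.Primes} {V : Subgroup (primeLocalGaloisGroup q)} {p : ℕ} [Fact p.Prime]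

variable (p) in
lemma exists_root (a : (Omega q)ˣ) : ∃ r : (Omega q)ˣ, r ^ p = a := by
  obtain ⟨r₀, hr₀⟩ := IsAlgClosed.exists_pow_nat_eq (a : Omega q) (Fact.out : p.Prime).pos
  exact ⟨Units.mk0 r₀ fun h0 => a.ne_zero (by
    rw [← hr₀, h0, zero_pow (Fact.out : p.Prime).ne_zero]), Units.ext (by simpa using hr₀)⟩

variable (p) in
/-- A chosen `p`-th root. -/
def kroot (a : (Omega q)ˣ) : (Omega q)ˣ := (exists_root p a).choose

lemma kroot_pow (a : (Omega q)ˣ) : kroot p a ^ p = a := (exists_root p a).choose_spec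

lemma muOmega_nsmul (n : ℕ) (x : ZMod p) : muOmega q (n • x) = muOmega q x ^ n := by
  induction n with
  | zero => rw [zero_smul, muOmega_zero, pow_zero]
  | succ n ih => rw [succ_nsmul, muOmega_add, ih, pow_succ]

lemma muV_apply_triv (hμ : ∀ τ ∈ V, cycloChar p (primeLocalToGlobal q τ) = 1) (v : ↥V) (m : ZMod p) :
    (muV p q V).ρ v m = m := by
  show (muRep p).ρ (primeLocalToGlobal q (v : primeLocalGaloisGroup q)) m = m
  rw [muRep_apply, hμ v v.2, Units.val_one, one_mul]

lemma smul_muOmega (hμ : ∀ τ ∈ V, cycloChar p (primeLocalToGlobal q τ) = 1) {τ : Gq q}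
    (hτ : τ ∈ galSub q V) (i : ZMod p) : τ • muOmega q i = muOmega q i :=
  Units.ext (muOmega_fixed hμ i τ hτ)

lemma smul_locUnits {a : (Omega q)ˣ} (ha : a ∈ locUnits q V) {τ : Gq q} (hτ : τ ∈ galSub q V) :
    τ • a = a :=
  Units.ext (ha τ hτ)

variable (V p) in
/-- The Kummer character of `a`. -/
def kum (a : (Omega q)ˣ) (v : ↥V) : ZMod p :=
  muOmegaLog (p := p) ((show Gq q from v.1) • kroot p a / kroot p a)

lemma muOmega_kum {a : (Omega q)ˣ} (ha : a ∈ locUnits q V) (v : ↥V) :
    muOmega q (kum V p a v) = (show Gq q from v.1) • kroot p a / kroot p a :=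
  muOmega_log (by rw [div_pow, ← smul_pow', kroot_pow, smul_locUnits ha v.2, div_self'])

lemma smul_kroot {a : (Omega q)ˣ} (ha : a ∈ locUnits q V) (v : ↥V) :
    (show Gq q from v.1) • kroot p a = muOmega q (kum V p a v) * kroot p a := by
  rw [muOmega_kum ha, div_mul_cancel]

lemma kum_add (hμ : ∀ τ ∈ V, cycloChar p (primeLocalToGlobal q τ) = 1) {a : (Omega q)ˣ}
    (ha : a ∈ locUnits q V) (s t : ↥V) : kum V p a (s * t) = kum V p a s + kum V p a t := by
  apply muOmega_injective (q := q)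
  rw [muOmega_kum ha, muOmega_add]
  show ((show Gq q from s.1) * (show Gq q from t.1)) • kroot p a / kroot p a = _
  rw [mul_smul, smul_kroot ha t, smul_mul', smul_muOmega hμ s.2, smul_kroot ha s, ← mul_assoc,
    mul_div_assoc, div_self', mul_one, mul_comm]

lemma kum_mul (hμ : ∀ τ ∈ V, cycloChar p (primeLocalToGlobal q τ) = 1) {a b : (Omega q)ˣ}
    (ha : a ∈ locUnits q V) (hb : b ∈ locUnits q V) :
    kum V p (a * b) = kum V p a + kum V p b := by
  funext v
  obtain ⟨i, hi⟩ := exists_muOmega_eq (q := q) (p := p)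
    (w := kroot p (a * b) / (kroot p a * kroot p b))
    (by rw [div_pow, mul_pow, kroot_pow, kroot_pow, kroot_pow, div_self'])
  have hr : kroot p (a * b) = muOmega q i * (kroot p a * kroot p b) := by rw [hi, div_mul_cancel]
  apply muOmega_injective (q := q)
  rw [muOmega_kum (mul_mem ha hb), hr, smul_mul', smul_mul', smul_muOmega hμ v.2, smul_kroot ha,
    smul_kroot hb, Pi.add_apply, muOmega_add]
  apply Additive.ofMul.injective
  simp only [ofMul_mul, ofMul_div]
  abel

lemma kum_eq_zero_iff (hμ : ∀ τ ∈ V, cycloChar p (primeLocalToGlobal q τ) = 1) {a : (Omega q)ˣ}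
    (ha : a ∈ locUnits q V) : kum V p a = 0 ↔ ∃ b ∈ locUnits q V, b ^ p = a := by
  constructor
  · intro h
    refine ⟨kroot p a, fun τ hτ => ?_, kroot_pow a⟩
    have h1 := smul_kroot (p := p) ha ⟨τ, hτ⟩
    rw [h, Pi.zero_apply, muOmega_zero, one_mul] at h1
    exact congrArg Units.val h1
  · rintro ⟨b, hb, hab⟩
    funext v
    obtain ⟨i, hi⟩ := exists_muOmega_eq (q := q) (p := p) (w := kroot p a / b)
      (by rw [div_pow, kroot_pow, hab, div_self'])
    have hr : kroot p a = muOmega q i * b := by rw [hi, div_mul_cancel]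
    apply muOmega_injective (q := q)
    rw [muOmega_kum ha, hr, smul_mul', smul_muOmega hμ v.2, smul_locUnits hb v.2, div_self',
      Pi.zero_apply, muOmega_zero]

lemma kum_const (hμ : ∀ τ ∈ V, cycloChar p (primeLocalToGlobal q τ) = 1) {a : (Omega q)ˣ}
    (ha : a ∈ locUnits q V) : IsConst₁ Levels.all (rV q V) (kum V p a) := by
  have : FiniteDimensional ℚ_[(q : ℕ)]
      (IntermediateField.adjoin ℚ_[(q : ℕ)] {((kroot p a : (Omega q)ˣ) : Omega q)}) :=
    IntermediateField.adjoin.finiteDimensional (Algebra.IsIntegral.isIntegral _)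
  obtain ⟨F, hF, h⟩ := isLevel_fixingSubgroup
    (IntermediateField.adjoin ℚ_[(q : ℕ)] {((kroot p a : (Omega q)ˣ) : Omega q)})
  refine ⟨F, hF, fun g s hs => ?_⟩
  have h1 : (show Gq q from s.1) • kroot p a = kroot p a :=
    Units.ext ((IntermediateField.mem_fixingSubgroup_iff _ _).1 (h s.1 hs) _
      (IntermediateField.mem_adjoin_simple_self _ _))
  have h0 : kum V p a s = 0 := by
    apply muOmega_injective (q := q)
    rw [muOmega_kum ha, h1, div_self', muOmega_zero]
  rw [kum_add hμ ha, h0, add_zero]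

variable (p V) in
/-- The continuous homomorphisms to `ℤ/p`. -/
abbrev HomSet : Type :=
  {z : ↥V → ZMod p // (∀ s t, z (s * t) = z s + z t) ∧ IsConst₁ Levels.all (rV q V) z}

lemma exists_kum_eq (hV : IsLocLevel q V)
    (hμ : ∀ τ ∈ V, cycloChar p (primeLocalToGlobal q τ) = 1) (z : HomSet V p) :
    ∃ a ∈ locUnits q V, kum V p a = z.1 := by
  let B : Gal(Omega q/fld V) → (Omega q)ˣ := fun g => muOmega q (z.1 ((galEquiv hV).symm g))
  have hB : IsSm1 (fld V) (Omega q) B := sm1_of_const hV (z.2.2.comp (muOmega q))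
  have hc : IsMulCocycle₁ B := fun g h => by
    obtain ⟨u, rfl⟩ := (galEquiv hV).surjective g
    obtain ⟨v, rfl⟩ := (galEquiv hV).surjective h
    simp only [B, ← map_mul, MulEquiv.symm_apply_apply]
    rw [muOmega_smul u _ hV, muV_apply_triv hμ, ← muOmega_add, add_comm]
    exact congrArg (muOmega q) (z.2.1 u v)
  obtain ⟨β, hβ⟩ := Local.exists_smul_div_eq hB hc
  have hval : ∀ v : ↥V, (show Gq q from v.1) • β = muOmega q (z.1 v) * β := fun v => by
    rw [← div_eq_iff_eq_mul]
    refine Eq.trans ?_ ((hβ (galEquiv hV v)).trans ?_)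
    · congr 1
    · show muOmega q (z.1 ((galEquiv hV).symm (galEquiv hV v))) = _
      exact congrArg (fun w => muOmega q (z.1 w)) ((galEquiv hV).symm_apply_apply v)
  have ha : β ^ p ∈ locUnits q V := fun τ hτ => by
    have : (show Gq q from τ) • β ^ p = β ^ p := by
      rw [smul_pow', hval ⟨τ, hτ⟩, mul_pow, muOmega_pow, one_mul]
    exact congrArg Units.val this
  refine ⟨β ^ p, ha, funext fun v => ?_⟩
  obtain ⟨i, hi⟩ := exists_muOmega_eq (q := q) (p := p) (w := kroot p (β ^ p) / β)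
    (by rw [div_pow, kroot_pow, div_self'])
  have hr : kroot p (β ^ p) = muOmega q i * β := by rw [hi, div_mul_cancel]
  apply muOmega_injective (q := q)
  rw [muOmega_kum ha, hr, smul_mul', smul_muOmega hμ v.2, hval]
  apply Additive.ofMul.injective
  simp only [ofMul_mul, ofMul_div]
  abel

theorem natCard_hom (hV : IsLocLevel q V)
    (hμ : ∀ τ ∈ V, cycloChar p (primeLocalToGlobal q τ) = 1) :
    Nat.card (HomSet V p) = p ^ (2 + if (q : ℕ) = p then V.index else 0) := by
  let Φ : locUnits q V →* Multiplicative (↥V → ZMod p) :=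
    MonoidHom.mk' (fun a => Multiplicative.ofAdd (kum V p (a : (Omega q)ˣ)))
      fun a b => congrArg Multiplicative.ofAdd (kum_mul hμ a.2 b.2)
  have hker : Φ.ker = ((powMonoidHom p : (Omega q)ˣ →* (Omega q)ˣ).comp
      (locUnits q V).subtype).range.subgroupOf (locUnits q V) := by
    ext a
    rw [MonoidHom.mem_ker, Subgroup.mem_subgroupOf]
    exact ((kum_eq_zero_iff hμ a.2).trans
      ⟨fun ⟨b, hb, e⟩ => ⟨⟨b, hb⟩, e⟩, fun ⟨b, e⟩ => ⟨b.1, b.2, e⟩⟩)
  rw [← locUnits_pow_index hV hμ, Subgroup.relIndex, ← hker, Subgroup.index_ker]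
  refine Nat.card_congr (Equiv.subtypeEquiv Multiplicative.ofAdd fun z => ⟨fun hz => ?_, ?_⟩)
  · obtain ⟨a, ha, e⟩ := exists_kum_eq hV hμ ⟨z, hz⟩
    exact ⟨⟨a, ha⟩, congrArg Multiplicative.ofAdd e⟩
  · rintro ⟨a, ha⟩
    obtain rfl : kum V p (a : (Omega q)ˣ) = z := Multiplicative.ofAdd.injective ha
    exact ⟨kum_add hμ a.2, kum_const hμ a.2⟩

/-! ### The symbol -/

lemma carry_not_coboundary (hV : IsLocLevel q V) {V' : Subgroup (primeLocalGaloisGroup q)}
    (hV' : IsLocLevel q V') (hle : V' ≤ V) (hn : (V'.subgroupOf V).Normal)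
    (χ : Gal(Omega q/fld V) →* Multiplicative (ZMod p)) (hχ : Function.Surjective χ)
    (hχk : ∀ v : galSub q V, χ (galEquiv hV v) = 1 ↔ (v : Gq q) ∈ galSub q V')
    {a : (Omega q)ˣ} (ha : a ∈ locUnits q V)
    {x : Gal(Omega q/fld V) → (Omega q)ˣ} (hx : IsSm1 (fld V) (Omega q) x)
    (hd : ∀ g h, Class.delta1 Gal(Omega q/fld V) (Omega q)ˣ x (g, h) = a ^ Class.carry χ g h) :
    a ∈ locNormSubgroup q V' V := by
  have : NeZero p := ⟨(Fact.out : p.Prime).ne_zero⟩
  have := extField_finite hV' hle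
  have := extField_isGalois hV' hle hn
  set M := extField hle
  let res := AlgEquiv.restrictNormalHom (F := fld V) (K₁ := Omega q) M
  have hres : Function.Surjective res := Local.restrictHom_surjective M
  have hk : ∀ g, res g = 1 ↔ χ g = 1 := fun g => by
    obtain ⟨v, rfl⟩ := (galEquiv hV).surjective g
    rw [Local.restrict_eq_one_iff, hχk]
    exact galEquiv_mem_iff hV' hle v
  let χ' := res.liftOfSurjective hres ⟨χ, fun g hg => (hk g).1 hg⟩
  have hχ' : ∀ g, χ' (res g) = χ g := fun g =>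
    MonoidHom.liftOfRightInverse_comp_apply _ _ _ _ g
  have hinj : Function.Injective χ' := (injective_iff_map_eq_one χ').2 fun y hy => by
    obtain ⟨g, rfl⟩ := hres y
    rw [hχ'] at hy
    exact (hk g).2 hy
  obtain ⟨g₁, hg₁⟩ := hχ (Multiplicative.ofAdd 1)
  have hσ : χ' (res g₁) = Multiplicative.ofAdd 1 := (hχ' g₁).trans hg₁
  let a₀ : fld V := ⟨(a : Omega q), mem_fld_iff.2 ha⟩
  let a' : Mˣ := Units.mk0 (algebraMap (fld V) M a₀) fun h =>
    a.ne_zero (congrArg Subtype.val h)
  let af : Class.fixedSubgroup Gal(M/fld V) Mˣ :=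
    ⟨a', fun g => Units.ext (g.commutes a₀)⟩
  have hcls : Local.inflBr M (Class.carryH2 χ' af) = 1 := by
    rw [Class.carryH2_eq, Local.inflBr_cls, Local.brCls_eq_one_iff]
    refine ⟨x, hx, funext fun gh => ?_⟩
    obtain ⟨g, h⟩ := gh
    rw [hd, Local.inflSm_apply, Class.carryZ2_apply]
    have hχ'' : ∀ g, χ' (AlgEquiv.restrictNormalHom M g) = χ g := hχ'
    simp only [Class.carry, Class.cval, hχ'']
    rw [map_pow]
    refine congrArg (· ^ _) (Units.ext ?_)
    rfl
  rw [← map_one (Local.inflBr M)] at hcls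
  obtain ⟨y, -, hy⟩ := Class.exists_norm_of_carryH2_eq_one (χ := χ') hσ
    (Local.h1Triv_subgroup χ'.ker).kill af (Local.inflBr_injective M hcls)
  refine Subgroup.subset_closure ⟨Units.map (M.val : M →* Omega q) y, fun τ hτ => ?_, ?_⟩
  · exact mem_fld_iff.1 (show ((y : M) : Omega q) ∈ fld V' from (y : M).2) τ hτ
  · rw [locNorm_eq hV' hle hn]
    have hbij : Function.Bijective fun i : Fin p => res g₁ ^ (i : ℕ) := by
      have hval : ∀ i : Fin p, χ' (res g₁ ^ (i : ℕ)) = Multiplicative.ofAdd ((i : ℕ) : ZMod p) := by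
        intro i
        rw [map_pow, hσ, ← ofAdd_nsmul, nsmul_one]
      constructor
      · intro i j hij
        have h1 := congrArg χ' hij
        simp only [hval] at h1
        exact Fin.ext (CharP.natCast_injOn_Iio (ZMod p) p i.2 j.2 (Multiplicative.ofAdd.injective h1))
      · intro g
        refine ⟨⟨(χ' g).toAdd.val, ZMod.val_lt _⟩, hinj ?_⟩
        show χ' (res g₁ ^ (χ' g).toAdd.val) = χ' g
        rw [map_pow, hσ, ← ofAdd_nsmul, nsmul_one, ZMod.natCast_zmod_val, ofAdd_toAdd]
    have hN : algebraMap (fld V) M (Algebra.norm (fld V) (y : M)) = algebraMap (fld V) M a₀ := by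
      rw [Algebra.norm_eq_prod_automorphisms, ← Fintype.prod_bijective _ hbij _ _ (fun _ => rfl),
        Fin.prod_univ_eq_prod_range (fun i => (res g₁ ^ i) (y : M))]
      have hy' := congrArg (Units.val) hy
      rw [Class.normPow, Units.coe_prod, pow_one] at hy'
      exact hy'
    rw [(algebraMap (fld V) M).injective hN]

theorem exists_cup_ne_zero (hV : IsLocLevel q V)
    (hμ : ∀ τ ∈ V, cycloChar p (primeLocalToGlobal q τ) = 1) {i : ↥V → ZMod p}
    (hi : ∀ s t, i (s * t) = i s + i t) (hic : IsConst₁ Levels.all (rV q V) i) (hi0 : i ≠ 0) :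
    ∃ (z : ↥V → ZMod p) (c : ↥(Z2 Levels.all (rV q V) (muV p q V))),
      (∀ s t, z (s * t) = z s + z t) ∧ IsConst₁ Levels.all (rV q V) z ∧
      (∀ s t, (c.1 (s, t) : ZMod p) = z s * i t) ∧ H2cπ _ _ _ c ≠ 0 := by
  have hp := (Fact.out : p.Prime)
  have : NeZero p := ⟨hp.ne_zero⟩
  let χ₀ : galSub q V →* Multiplicative (ZMod p) :=
    MonoidHom.mk' (fun v => Multiplicative.ofAdd (i v)) fun s t => congrArg Multiplicative.ofAdd (hi s t)
  let χ := χ₀.comp (galEquiv hV).symm.toMonoidHom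
  have hχe : ∀ v, χ (galEquiv hV v) = χ₀ v := fun v =>
    congrArg χ₀ ((galEquiv hV).symm_apply_apply v)
  have hχ : Function.Surjective χ := by
    obtain ⟨v, hv⟩ := Function.ne_iff.1 hi0
    intro m
    refine ⟨galEquiv hV ((show galSub q V from v) ^ (m.toAdd * (i v)⁻¹).val), ?_⟩
    rw [map_pow (galEquiv hV), map_pow χ, hχe]
    show Multiplicative.ofAdd (i v) ^ _ = m
    rw [← ofAdd_nsmul, nsmul_eq_mul, ZMod.natCast_zmod_val, inv_mul_cancel_right₀ hv, ofAdd_toAdd]
  let V' : Subgroup (primeLocalGaloisGroup q) := χ₀.ker.map (galSub q V).subtype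
  have hle : V' ≤ V := by
    rintro _ ⟨v, -, rfl⟩
    exact v.2
  have hmem : ∀ v : galSub q V, (v : Gq q) ∈ galSub q V' ↔ χ₀ v = 1 := fun v =>
    ⟨fun ⟨w, hw, e⟩ => (Subtype.ext e : w = v) ▸ hw, fun h => ⟨v, h, rfl⟩⟩
  have hsub : V'.subgroupOf V = χ₀.ker := by
    ext v
    exact hmem v
  have hn : (V'.subgroupOf V).Normal := hsub ▸ MonoidHom.normal_ker χ₀
  have hidx : V'.relIndex V = p := by
    rw [Subgroup.relIndex, hsub]
    refine (Subgroup.index_ker χ₀).trans ?_
    rw [MonoidHom.range_eq_top.2 fun m => by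
        obtain ⟨g, hg⟩ := hχ m
        exact ⟨(galEquiv hV).symm g, hg⟩,
      Subgroup.card_top, Nat.card_congr Multiplicative.toAdd, Nat.card_zmod]
  have hV' : IsLocLevel q V' := by
    obtain ⟨FV, hFV, hFVs⟩ := hV
    obtain ⟨Fi, hFi, hFis⟩ := hic
    refine ⟨FV ⊔ Fi, Levels.all.sup _ _ hFV hFi, fun s hs => ?_⟩
    have hsV := hFVs s (IntermediateField.fixingSubgroup_antitone le_sup_left hs)
    refine ⟨⟨s, hsV⟩, ?_, rfl⟩
    show Multiplicative.ofAdd (i ⟨s, hsV⟩) = 1
    have h1 := hFis 1 ⟨s, hsV⟩ (IntermediateField.fixingSubgroup_antitone le_sup_right hs)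
    rw [one_mul] at h1
    have h0 : i (1 : ↥V) = 0 := by simpa using hi 1 1
    rw [h1, h0, ofAdd_zero]
  obtain ⟨a, ha, haN⟩ : ∃ a ∈ locUnits q V, a ∉ locNormSubgroup q V' V := by
    by_contra! hall
    exact hp.ne_one ((locNorm_index hV' hle hn hidx).symm.trans (Subgroup.relIndex_eq_one.2 hall))
  let z := kum V p a
  have hz := kum_add hμ ha
  let cf : ↥V × ↥V → ZMod p := fun st => z st.1 * i st.2
  have hcf : cf ∈ Z2 Levels.all (rV q V) (muV p q V) := by
    refine ⟨(mem_cocycles₂_iff (A := muV p q V) cf).2 fun u v j => ?_, ?_⟩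
    · rw [muV_apply_triv hμ]
      simp only [cf, z, hz, hi]
      ring
    · obtain ⟨F, hF, h⟩ := (kum_const hμ ha).prodMk hic
      refine ⟨F, hF, fun g g' s s' hs hs' => ?_⟩
      show z (g * s) * i (g' * s') = z g * i g'
      have h1 : z (g * s) = z g := congrArg Prod.fst (h g s hs)
      have h2 : i (g' * s') = i g' := congrArg Prod.snd (h g' s' hs')
      rw [h1, h2]
  refine ⟨z, ⟨cf, hcf⟩, hz, kum_const hμ ha, fun s t => rfl, fun h0 => ?_⟩
  obtain ⟨b, hb, hbd⟩ := (Submodule.Quotient.mk_eq_zero _).1 h0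
  let w : Gal(Omega q/fld V) → (Omega q)ˣ := fun g => kroot p a ^ Class.cval χ g
  let x' : Gal(Omega q/fld V) → (Omega q)ˣ := fun g => muOmega q (b ((galEquiv hV).symm g))
  refine haN (carry_not_coboundary hV hV' hle hn χ hχ (fun v => by rw [hχe, hmem]) ha
    (x := w / x') ?_ ?_)
  · exact ((sm1_of_const hV (f := fun v => kroot p a ^ (i v).val)
      (hic.comp fun m => kroot p a ^ m.val))).combine (sm1_of_const hV (hb.comp (muOmega q))) (· / ·)
  · intro g h
    obtain ⟨u, rfl⟩ := (galEquiv hV).surjective g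
    obtain ⟨v, rfl⟩ := (galEquiv hV).surjective h
    have hbd' := congrFun hbd (u, v)
    change (muV p q V).ρ u (b v) - b (u * v) + b u = z u * i v at hbd'
    have hx' : Class.delta1 Gal(Omega q/fld V) (Omega q)ˣ x' (galEquiv hV u, galEquiv hV v)
        = muOmega q (z u) ^ (i v).val := by
      rw [Class.delta1_apply, ← muOmega_nsmul, nsmul_eq_mul, ZMod.natCast_zmod_val, mul_comm (i v),
        ← hbd', muOmega_add, muOmega_sub]
      simp only [x', ← map_mul, MulEquiv.symm_apply_apply]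
      rw [muOmega_smul u _ hV]
    have hsm : galEquiv hV u • kroot p a = muOmega q (z u) * kroot p a :=
      smul_kroot ha u
    rw [map_div, Pi.div_apply, hx', Class.delta1_apply]
    simp only [w, smul_pow', hsm]
    have hcv : Class.cval χ (galEquiv hV v) = (i v).val := by
      simp [Class.cval, hχe, χ₀]
    have e := Nat.mod_add_div (Class.cval χ (galEquiv hV u) + Class.cval χ (galEquiv hV v)) p
    rw [← Class.cval_mul] at e
    have e' := congrArg (fun k => Additive.ofMul (kroot p a ^ k)) e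
    simp only [pow_add, pow_mul, kroot_pow, ofMul_mul] at e'
    apply Additive.ofMul.injective
    rw [hcv] at e'
    rw [mul_pow, Class.carry, hcv]
    simp only [ofMul_mul, ofMul_div]
    linear_combination (norm := abel) -e'

end Fermat.Agent.CFT.LocalInst
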