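import Fermat.Agent.CFT.Local.SmoothH90
import Fermat.Agent.CFT.Local.Invariant
import Fermat.Agent.CFT.LocalInst.NormIndex
import Fermat.Agent.CFT.MuInc

/-!
`H²(G_K, μ_p) = Br(K)[p]` is one-dimensional for the local fields inside `Omega q`.
-/

set_option autoImplicit false
set_option linter.unusedSectionVars false

open CategoryTheory groupCohomology ExtCitation

noncomputable section

namespace Fermat.Agent.CFT.LocalInst

open Fermat.Agent.CFT.Local (IsSm1 IsSm2 Br brCls smZ2 unrGen)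

variable {q : Nat.Primes} {V : Subgroup (primeLocalGaloisGroup q)} {p : ℕ} [Fact p.Prime]

/-- The level of a global level inside `Omega q`. -/
lemma exists_locLevel {F : IntermediateField ℚ (AlgebraicClosure ℚ)} (hF : Levels.all.ok F) :
    ∃ N : IntermediateField ℚ_[(q : ℕ)] (Omega q), FiniteDimensional ℚ_[(q : ℕ)] N ∧
      ∀ τ : Gq q, τ ∈ N.fixingSubgroup → primeLocalToGlobal q τ ∈ F.fixingSubgroup := by
  obtain ⟨N, hN, hle⟩ := exists_fixingSubgroup_le
    (V := (F.fixingSubgroup.comap (primeLocalToGlobal q))) ⟨F, hF, fun s hs => hs⟩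
  exact ⟨N, hN, fun τ hτ => hle hτ⟩

lemma exists_smLevel (hV : IsLocLevel q V) {F : IntermediateField ℚ (AlgebraicClosure ℚ)}
    (hF : Levels.all.ok F) :
    ∃ M : IntermediateField (fld V) (Omega q), FiniteDimensional (fld V) M ∧
      ∀ g ∈ M.fixingSubgroup, rV q V ((galEquiv hV).symm g) ∈ F.fixingSubgroup := by
  obtain ⟨N, hN, hN'⟩ := exists_locLevel (q := q) hF
  have := finiteDimensional_fld hV
  have : FiniteDimensional ℚ_[(q : ℕ)] (fld V ⊔ N : IntermediateField ℚ_[(q : ℕ)] (Omega q)) :=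
    IntermediateField.finiteDimensional_sup _ _
  let M : IntermediateField (fld V) (Omega q) :=
    IntermediateField.extendScalars (F := fld V) (E := fld V ⊔ N) le_sup_left
  have : FiniteDimensional ℚ_[(q : ℕ)] M :=
    (inferInstance : FiniteDimensional ℚ_[(q : ℕ)] (fld V ⊔ N : IntermediateField ℚ_[(q : ℕ)] (Omega q)))
  refine ⟨M, Module.Finite.of_restrictScalars_finite ℚ_[(q : ℕ)] (fld V) M, fun g hg => ?_⟩
  obtain ⟨v, rfl⟩ := (galEquiv hV).surjective g
  rw [MulEquiv.symm_apply_apply]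
  refine hN' (v : Gq q) ((IntermediateField.mem_fixingSubgroup_iff _ _).2 fun z hz => ?_)
  exact (galEquiv_apply hV v z).symm.trans ((IntermediateField.mem_fixingSubgroup_iff _ _).1 hg z
    ((le_sup_right : N ≤ fld V ⊔ N) hz))

lemma sm1_of_const (hV : IsLocLevel q V) {X : Type} {f : ↥V → X}
    (hf : IsConst₁ Levels.all (rV q V) f) :
    IsSm1 (fld V) (Omega q) (fun g => f ((galEquiv hV).symm g)) := by
  obtain ⟨F, hF, h⟩ := hf
  obtain ⟨M, hM, hM'⟩ := exists_smLevel hV hF
  exact ⟨M, hM, fun g s hs => by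
    show f ((galEquiv hV).symm (g * s)) = _
    rw [map_mul]; exact h _ _ (hM' s hs)⟩

lemma sm2_of_const (hV : IsLocLevel q V) {X : Type} {f : ↥V × ↥V → X}
    (hf : IsConst₂ Levels.all (rV q V) f) :
    IsSm2 (fld V) (Omega q) (fun g => f ((galEquiv hV).symm g.1, (galEquiv hV).symm g.2)) := by
  obtain ⟨F, hF, h⟩ := hf
  obtain ⟨M, hM, hM'⟩ := exists_smLevel hV hF
  exact ⟨M, hM, fun g g' s hs t ht => by
    show f ((galEquiv hV).symm (g * s), (galEquiv hV).symm (g' * t)) = _
    rw [map_mul, map_mul]; exact h _ _ _ _ (hM' s hs) (hM' t ht)⟩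

lemma exists_constLevel (hV : IsLocLevel q V) (M : IntermediateField (fld V) (Omega q))
    [FiniteDimensional (fld V) M] :
    ∃ F, Levels.all.ok F ∧ ∀ v : galSub q V, rV q V v ∈ F.fixingSubgroup →
      galEquiv hV v ∈ M.fixingSubgroup := by
  have := finiteDimensional_fld hV
  have : FiniteDimensional ℚ_[(q : ℕ)] (M.restrictScalars ℚ_[(q : ℕ)]) :=
    Module.Finite.trans (R := ℚ_[(q : ℕ)]) (fld V) M
  obtain ⟨F, hF, h⟩ := isLevel_fixingSubgroup (M.restrictScalars ℚ_[(q : ℕ)])
  refine ⟨F, hF, fun v hv => (IntermediateField.mem_fixingSubgroup_iff _ _).2 fun z hz => ?_⟩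
  rw [galEquiv_apply]
  exact (IntermediateField.mem_fixingSubgroup_iff _ _).1 (h (v : Gq q) hv) z hz

lemma const_of_sm1 (hV : IsLocLevel q V) {X : Type} {f : Gal(Omega q/fld V) → X}
    (hf : IsSm1 (fld V) (Omega q) f) :
    IsConst₁ Levels.all (rV q V) (fun v : ↥V => f (galEquiv hV v)) := by
  obtain ⟨M, hM, h⟩ := hf
  obtain ⟨F, hF, h'⟩ := exists_constLevel hV M
  exact ⟨F, hF, fun g s hs => (congrArg f (map_mul (galEquiv hV) g s)).trans (h _ _ (h' s hs))⟩

lemma const_of_sm2 (hV : IsLocLevel q V) {X : Type} {f : Gal(Omega q/fld V) × Gal(Omega q/fld V) → X}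
    (hf : IsSm2 (fld V) (Omega q) f) :
    IsConst₂ Levels.all (rV q V) (fun v : ↥V × ↥V => f (galEquiv hV v.1, galEquiv hV v.2)) := by
  obtain ⟨M, hM, h⟩ := hf
  obtain ⟨F, hF, h'⟩ := exists_constLevel hV M
  exact ⟨F, hF, fun g g' s s' hs hs' =>
    (congrArg f (Prod.ext (map_mul (galEquiv hV) g s) (map_mul (galEquiv hV) g' s'))).trans
      (h _ _ _ (h' s hs) _ (h' s' hs'))⟩

/-! ### The roots of unity -/

variable (q) in
/-- `i ↦ ι(ζ^i)`. -/
def muOmega (i : ZMod p) : (Omega q)ˣ := iota q (muInc p i)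

lemma muOmega_add (i j : ZMod p) : muOmega q (i + j) = muOmega q i * muOmega q j := by
  rw [muOmega, muInc_add, map_mul]; rfl

lemma muOmega_injective : Function.Injective (muOmega q (p := p)) :=
  (Units.map_injective (padicEmbedding (q : ℕ)).injective).comp muInc_injective

lemma muOmega_zero : muOmega q (0 : ZMod p) = 1 := by rw [muOmega, muInc_zero, map_one]

lemma muOmega_sub (i j : ZMod p) : muOmega q (i - j) = muOmega q i / muOmega q j := by
  rw [muOmega, muInc_sub, map_div]; rfl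

lemma exists_muOmega_eq {w : (Omega q)ˣ} (hw : w ^ p = 1) :
    ∃ i : ZMod p, muOmega q i = w := by
  have : NeZero p := ⟨(Fact.out : p.Prime).ne_zero⟩
  have hprim : IsPrimitiveRoot (iota q (zetaP p)) p :=
    zetaP_isPrimitiveRoot.map_of_injective (Units.map_injective (padicEmbedding (q : ℕ)).injective)
  obtain ⟨i, -, hi⟩ := (IsPrimitiveRoot.coe_units_iff.2 hprim).eq_pow_of_pow_eq_one
    (ξ := (w : Omega q)) (by rw [← Units.val_pow_eq_pow_val, hw, Units.val_one])
  refine ⟨i, Units.ext ?_⟩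
  rw [muOmega, muInc_natCast, map_pow, Units.val_pow_eq_pow_val]
  exact hi

lemma muOmega_smul (v : galSub q V) (i : ZMod p) (hV : IsLocLevel q V) :
    galEquiv hV v • muOmega q i = muOmega q ((muV p q V).ρ v i) := by
  refine Units.ext ?_
  show galEquiv hV v (padicEmbedding (q : ℕ) (muInc p i : AlgebraicClosure ℚ)) = _
  rw [galEquiv_apply, apply_padicEmbedding, gal_muInc]
  rfl

open Classical in
/-- The inverse of `muOmega`. -/
def muOmegaLog (w : (Omega q)ˣ) : ZMod p :=
  if h : ∃ i, muOmega q i = w then h.choose else 0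

lemma muOmega_log {w : (Omega q)ˣ} (hw : w ^ p = 1) :
    muOmega q (muOmegaLog (p := p) w) = w := by
  rw [muOmegaLog, dif_pos (exists_muOmega_eq hw)]
  exact (exists_muOmega_eq hw).choose_spec

lemma muOmega_pow (i : ZMod p) : muOmega q i ^ p = 1 := by
  rw [muOmega, ← map_pow, muInc_pow_eq_one, map_one]

/-! ### The comparison -/

/-- A `μ_p`-valued cocycle as a cocycle in the multiplicative group. -/
def toSm (hV : IsLocLevel q V) :
    ↥(Z2 Levels.all (rV q V) (muV p q V)) →+ Additive (smZ2 (fld V) (Omega q)) where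
  toFun c := Additive.ofMul ⟨⟨fun g => muOmega q (c.1 ((galEquiv hV).symm g.1, (galEquiv hV).symm g.2)),
    fun g h j => by
      obtain ⟨a, rfl⟩ := (galEquiv hV).surjective g
      obtain ⟨b, rfl⟩ := (galEquiv hV).surjective h
      obtain ⟨d, rfl⟩ := (galEquiv hV).surjective j
      simp only [← map_mul, MulEquiv.symm_apply_apply]
      rw [muOmega_smul _ _ hV, ← muOmega_add, ← muOmega_add]
      exact congrArg (muOmega q) ((mem_cocycles₂_iff (A := muV p q V) c.1).1 c.2.1 a b d)⟩,
    sm2_of_const hV (c.2.2.comp (muOmega q))⟩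
  map_zero' := by
    apply congrArg Additive.ofMul
    exact Subtype.ext (Subtype.ext (funext fun g => muOmega_zero))
  map_add' c d := by
    apply congrArg Additive.ofMul
    exact Subtype.ext (Subtype.ext (funext fun g => muOmega_add _ _))

lemma toSm_apply (hV : IsLocLevel q V) (c : ↥(Z2 Levels.all (rV q V) (muV p q V)))
    (g h : Gal(Omega q/fld V)) :
    ((Additive.toMul (toSm hV c) : smZ2 (fld V) (Omega q)) :
      Class.Z2 Gal(Omega q/fld V) (Omega q)ˣ).1 (g, h)
      = muOmega q (c.1 ((galEquiv hV).symm g, (galEquiv hV).symm h)) := rfl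

/-- A class dying in the Brauer group is trivial. -/
theorem mem_B2_of_toSm (hV : IsLocLevel q V) {c : ↥(Z2 Levels.all (rV q V) (muV p q V))}
    (h : brCls (Additive.toMul (toSm hV c)) = 1) : c.1 ∈ B2 Levels.all (rV q V) (muV p q V) := by
  obtain ⟨b, hb, hd⟩ := (Local.brCls_eq_one_iff _).1 h
  have := finiteDimensional_fld hV
  have hval : ∀ g h : Gal(Omega q/fld V), g • b h / b (g * h) * b g
      = muOmega q (c.1 ((galEquiv hV).symm g, (galEquiv hV).symm h)) := fun g h => congrFun hd (g, h)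
  have hco : IsMulCocycle₁ fun g => b g ^ p := fun g h => by
    have := congrArg (· ^ p) (hval g h)
    rw [muOmega_pow, mul_pow, div_pow, div_mul_eq_mul_div, div_eq_one, ← smul_pow'] at this
    exact this.symm
  obtain ⟨β, hβ⟩ := Local.exists_smul_div_eq (hb.comp (· ^ p)) hco
  obtain ⟨γ₀, hγ₀⟩ := IsAlgClosed.exists_pow_nat_eq (β : Omega q) (Fact.out : p.Prime).pos
  let γ : (Omega q)ˣ := Units.mk0 γ₀ fun h0 => β.ne_zero (by
    rw [← hγ₀, h0, zero_pow (Fact.out : p.Prime).ne_zero])
  have hγ : γ ^ p = β := Units.ext (by simpa [γ] using hγ₀)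
  let b' : Gal(Omega q/fld V) → (Omega q)ˣ := fun g => b g / (g • γ / γ)
  have hb'p : ∀ g, b' g ^ p = 1 := fun g => by
    simp only [b', div_pow, ← smul_pow', hγ, hβ g, Function.comp_apply, div_self']
  have hb'd : ∀ g h : Gal(Omega q/fld V), g • b' h / b' (g * h) * b' g
      = muOmega q (c.1 ((galEquiv hV).symm g, (galEquiv hV).symm h)) := fun g h => by
    rw [← hval g h]
    apply Additive.ofMul.injective
    simp only [b', smul_div', mul_smul, ofMul_mul, ofMul_div]
    abel
  refine ⟨fun v => muOmegaLog (p := p) (b' (galEquiv hV v)), ?_, funext fun vw => ?_⟩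
  · exact (const_of_sm1 hV (hb.combine
      ((Local.isSm1_smul γ).comp (· / γ)) (· / ·))).comp (muOmegaLog (p := p))
  · obtain ⟨v, w⟩ := vw
    apply muOmega_injective (q := q) (p := p)
    have h1 := hb'd (galEquiv hV v) (galEquiv hV w)
    simp only [MulEquiv.symm_apply_apply] at h1
    rw [← h1]
    show muOmega q ((muV p q V).ρ v _ - _ + _) = _
    rw [muOmega_add, muOmega_sub, ← muOmega_smul v _ hV, muOmega_log (hb'p _),
      muOmega_log (hb'p _), muOmega_log (hb'p _)]
    exact congrArg (fun t => _ / b' t * _) (map_mul (galEquiv hV) v w)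

/-- The class of invariant `1/p` comes from `μ_p`. -/
theorem exists_toSm_eq_unrGen (hV : IsLocLevel q V) :
    (have := finiteDimensional_fld hV; have := FiniteDimensional.proper ℚ_[(q : ℕ)] (fld V);
      ∃ c : ↥(Z2 Levels.all (rV q V) (muV p q V)),
        brCls (Additive.toMul (toSm hV c)) = unrGen (fld V) (Omega q) p) := by
  have := finiteDimensional_fld hV
  have := FiniteDimensional.proper ℚ_[(q : ℕ)] (fld V)
  have : NeZero p := ⟨(Fact.out : p.Prime).ne_zero⟩
  set π := Units.mk0 (Local.unif (fld V)) (Local.unif_ne_zero (fld V))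
  set χ := Local.unrChar (fld V) (Omega q) p
  set a := Local.baseUnit (fld V) (Omega q) π
  obtain ⟨r₀, hr₀⟩ := IsAlgClosed.exists_pow_nat_eq ((a : (Omega q)ˣ) : Omega q)
    (Fact.out : p.Prime).pos
  let r : (Omega q)ˣ := Units.mk0 r₀ fun h0 => (a : (Omega q)ˣ).ne_zero (by
    rw [← hr₀, h0, zero_pow (Fact.out : p.Prime).ne_zero])
  have hr : r ^ p = (a : (Omega q)ˣ) := Units.ext (by simpa [r] using hr₀)
  let w : Gal(Omega q/fld V) → (Omega q)ˣ := fun g => (r ^ Class.cval χ g)⁻¹
  let f := fun g h : Gal(Omega q/fld V) =>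
    (a : (Omega q)ˣ) ^ Class.carry χ g h * Class.delta1 Gal(Omega q/fld V) (Omega q)ˣ w (g, h)
  have hfp : ∀ g h, f g h ^ p = 1 := fun g h => by
    have hg : ∀ k : ℕ, g • (a : (Omega q)ˣ) ^ k = (a : (Omega q)ˣ) ^ k := fun k => by
      rw [smul_pow', a.2 g]
    have hwp : ∀ g', w g' ^ p = ((a : (Omega q)ˣ) ^ Class.cval χ g')⁻¹ := fun g' => by
      simp only [w, inv_pow, ← pow_mul]
      rw [mul_comm, pow_mul, hr]
    have e := congrArg (fun k => Additive.ofMul ((a : (Omega q)ˣ) ^ k))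
      (Nat.mod_add_div (Class.cval χ g + Class.cval χ h) p)
    simp only [← Class.cval_mul, ← pow_add] at e
    simp only [f, Class.delta1_apply, mul_pow, div_pow, ← smul_pow', hwp, smul_inv', hg,
      ← pow_mul]
    apply Additive.ofMul.injective
    rw [mul_comm (Class.carry χ g h) p]
    change Additive.ofMul ((a : (Omega q)ˣ) ^ (Class.cval χ (g * h) + p * Class.carry χ g h)) = _ at e
    simp only [pow_add, ofMul_mul] at e
    simp only [ofMul_mul, ofMul_div, ofMul_inv, ofMul_one]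
    linear_combination (norm := abel) e
  have hws : IsSm1 (fld V) (Omega q) w :=
    Local.isSm1_of_restrict fun τ => (r ^ Class.cval (Local.unrCharFin (fld V) (Omega q) p) τ)⁻¹
  have hfs : IsSm2 (fld V) (Omega q) (fun gh => f gh.1 gh.2) := by
    refine IsSm2.combine (Local.unrSm (fld V) (Omega q) p π).2 ?_ (· * ·)
    obtain ⟨M, hM, hMw⟩ := hws
    obtain ⟨M₁, hM₁, hM₁n, hle, hrM⟩ := Local.exists_level
      (M ⊔ Local.unrField (fld V) (Omega q) p) {(r : Omega q)} (Set.finite_singleton _)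
    refine ⟨M₁, hM₁, fun g h s hs t ht => ?_⟩
    have hnorm : M₁.fixingSubgroup.Normal := by
      rw [← IntermediateField.restrictNormalHom_ker]; exact MonoidHom.normal_ker _
    have hmem : ∀ x ∈ M₁.fixingSubgroup, x ∈ M.fixingSubgroup := fun x hx =>
      IntermediateField.fixingSubgroup_antitone (le_sup_left.trans hle) hx
    have hgh : g * s * (h * t) = g * h * ((h⁻¹ * s * h) * t) := by group
    simp only [Class.delta1_apply]
    rw [hgh, hMw _ _ (hmem _ (mul_mem (by simpa using hnorm.conj_mem s hs h⁻¹) ht)),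
      hMw _ _ (hmem _ hs), hMw _ _ (hmem _ ht)]
    congr 2
    rw [mul_smul]
    congr 1
    have hsr : s • r = r := Units.ext ((IntermediateField.mem_fixingSubgroup_iff _ _).1 hs _
      (hrM rfl))
    simp only [w, smul_inv', smul_pow', hsr]
  let c : ↥V × ↥V → ZMod p := fun vw => muOmegaLog (p := p) (f (galEquiv hV vw.1) (galEquiv hV vw.2))
  have hc2 : ∀ v v' : ↥V, muOmega q (c (v, v')) = f (galEquiv hV v) (galEquiv hV v') :=
    fun v v' => muOmega_log (hfp _ _)
  have hcz : c ∈ Z2 Levels.all (rV q V) (muV p q V) := by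
    refine ⟨(mem_cocycles₂_iff (A := muV p q V) c).2 fun u v j => ?_, (const_of_sm2 hV hfs).comp (muOmegaLog (p := p))⟩
    apply muOmega_injective (q := q) (p := p)
    have e1 : galEquiv hV (u * v) = galEquiv hV u * galEquiv hV v := map_mul (galEquiv hV) u v
    have e2 : galEquiv hV (v * j) = galEquiv hV v * galEquiv hV j := map_mul (galEquiv hV) v j
    rw [muOmega_add, muOmega_add, ← muOmega_smul u _ hV, hc2, hc2, hc2, hc2, e1, e2]
    exact ((Class.carryZ2 χ a * ⟨_, Class.delta1_mem_Z2 w⟩ :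
      Class.Z2 Gal(Omega q/fld V) (Omega q)ˣ)).2 (galEquiv hV u) (galEquiv hV v) (galEquiv hV j)
  refine ⟨⟨c, hcz⟩, ?_⟩
  rw [unrGen, Local.unrBr_apply, Local.brCls_eq_iff]
  refine ⟨w, hws, fun g h => ?_⟩
  rw [toSm_apply, hc2, MulEquiv.apply_symm_apply, MulEquiv.apply_symm_apply]
  rfl

theorem finrank_H2 (hV : IsLocLevel q V) :
    Module.finrank (ZMod p) (H2c Levels.all (rV q V) (muV p q V)) = 1 := by
  have := finiteDimensional_fld hV
  have := FiniteDimensional.proper ℚ_[(q : ℕ)] (fld V)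
  have : NeZero p := ⟨(Fact.out : p.Prime).ne_zero⟩
  obtain ⟨c, hc⟩ := exists_toSm_eq_unrGen (p := p) hV
  have hker : ∀ d : ↥(Z2 Levels.all (rV q V) (muV p q V)),
      brCls (Additive.toMul (toSm hV d)) = 1 → H2cπ _ _ _ d = 0 := fun d hd =>
    (Submodule.Quotient.mk_eq_zero _).2 (mem_B2_of_toSm hV hd)
  have hne : H2cπ _ _ _ c ≠ 0 := fun h0 => by
    obtain ⟨x, hx, hxc⟩ := (Submodule.Quotient.mk_eq_zero _).1 h0
    have h1 : brCls (Additive.toMul (toSm hV c)) = 1 := by
      refine (Local.brCls_eq_one_iff _).2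
        ⟨fun g => muOmega q (x ((galEquiv hV).symm g)), sm1_of_const hV (f := fun v => muOmega q (x v)) (hx.comp (muOmega q)), funext fun gh => ?_⟩
      obtain ⟨g, h⟩ := gh
      obtain ⟨a, rfl⟩ := (galEquiv hV).surjective g
      obtain ⟨b, rfl⟩ := (galEquiv hV).surjective h
      have hxc' := congrFun hxc (a, b)
      change (muV p q V).ρ a (x b) - x (a * b) + x a = c.1 (a, b) at hxc'
      rw [Class.delta1_apply, toSm_apply, ← map_mul, MulEquiv.symm_apply_apply,
        MulEquiv.symm_apply_apply, MulEquiv.symm_apply_apply, muOmega_smul _ _ hV, ← muOmega_sub,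
        ← muOmega_add]
      exact congrArg _ hxc'
    rw [hc, ← zpow_one (unrGen (fld V) (Omega q) p), Local.unrGen_zpow_eq_one_iff] at h1
    exact (Fact.out : p.Prime).ne_one (by exact_mod_cast Int.eq_one_of_dvd_one (by positivity) h1)
  refine finrank_eq_one _ hne fun y => ?_
  obtain ⟨d, rfl⟩ := Submodule.mkQ_surjective _ y
  have hp : brCls (Additive.toMul (toSm hV d)) ^ p = 1 := by
    rw [← QuotientGroup.mk_pow, ← toMul_nsmul, ← map_nsmul,
      show p • d = 0 by rw [← Nat.cast_smul_eq_nsmul (ZMod p), ZMod.natCast_self, zero_smul],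
      map_zero]
    rfl
  obtain ⟨j, hj⟩ := Local.mem_zpowers_of_pow_eq_one (fld V) (Omega q) hp
  refine ⟨(j : ZMod p), ?_⟩
  have h0 : H2cπ _ _ _ (d - (j : ZMod p) • c) = 0 := hker _ (by
    have e : toSm hV ((j : ZMod p) • c) = j • toSm hV c :=
      (congrArg (toSm hV) (Int.cast_smul_eq_zsmul (ZMod p) j c)).trans (map_zsmul _ _ _)
    rw [map_sub, e, toMul_sub, toMul_zsmul]
    show ((_ : smZ2 (fld V) (Omega q)) : Br (fld V) (Omega q)) = 1
    rw [QuotientGroup.mk_div, QuotientGroup.mk_zpow, div_eq_one]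
    exact hj.symm.trans (congrArg (· ^ j) hc.symm))
  rw [map_sub, map_smul, sub_eq_zero] at h0
  exact h0.symm

end Fermat.Agent.CFT.LocalInst
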