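import Fermat.Agent.CFT.LocalUnitsPhi
import Fermat.Agent.CFT.LocalInst.NormIndex
import Fermat.Agent.CFT.LocalInst.MuBridge

/-!
The number of `p`-th power classes of a local field containing `ζ_p`.
-/

set_option autoImplicit false
set_option linter.unusedSectionVars false

open CategoryTheory groupCohomology ExtCitation

noncomputable section

namespace Fermat.Agent.CFT.LocalInst

open EquivariantCount LocalUnitsPhi

section Abstract

variable {G : Type*} [Group G] {p : ℕ} [Fact p.Prime] {A : Type*} [AddCommGroup A]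

lemma zmod_hom_ext {f f' : ZMod p →+ A} (h : f 1 = f' 1) : f = f' := by
  refine AddMonoidHom.ext fun n => ?_
  have : NeZero p := ⟨(Fact.out : p.Prime).ne_zero⟩
  rw [← ZMod.natCast_zmod_val n, ← nsmul_one, map_nsmul, map_nsmul, h]

/-- Equivariant maps out of the trivial module `ℤ/p`, for a trivial action. -/
lemma card_eHom_zmod (ρ : Representation ℤ G A) (hρ : ∀ g a, ρ g a = a) :
    Nat.card (eHom (1 : Representation (ZMod p) G (ZMod p)) ρ)
      = Nat.card {a : A // p • a = 0} := by
  refine Nat.card_congr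
    { toFun := fun f => ⟨f.1 1, nsmul_apply_eq_zero f.1 1⟩
      invFun := fun a => ⟨ZMod.lift p ⟨zmultiplesHom A a.1, by simpa using a.2⟩,
        fun g n => by simp [hρ]⟩
      left_inv := fun f => Subtype.ext (zmod_hom_ext ?_)
      right_inv := fun a => Subtype.ext ?_ }
  · rw [← Int.cast_one, ZMod.lift_coe]; simp
  · show ZMod.lift p _ 1 = a.1
    rw [← Int.cast_one, ZMod.lift_coe]; simp

end Abstract

variable {q : ℕ} [Fact q.Prime] {L : Type*} [NormedField L] [NormedAlgebra ℚ_[q] L]
  [FiniteDimensional ℚ_[q] L] {p : ℕ} [Fact p.Prime]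

/-- `[Lˣ : Lˣ^p]` for a local field containing `ζ_p`. -/
theorem index_powers {ζ : L} (hζ : IsPrimitiveRoot ζ p) :
    (powMonoidHom p : Lˣ →* Lˣ).range.index
      = p ^ (2 + if q = p then Module.finrank ℚ_[q] L else 0) := by
  have hp := (Fact.out : p.Prime)
  have : NeZero p := ⟨hp.ne_zero⟩
  let G := (⊥ : Subgroup (L ≃ₐ[ℚ_[q]] L))
  have hG1 : Fintype.card G = 1 := by
    rw [← Nat.card_eq_fintype_card]; exact Subgroup.card_bot
  have hG : ¬ p ∣ Fintype.card G := by rw [hG1]; exact hp.not_dvd_one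
  have htriv : ∀ (g : G) (x : L), g • x = x := fun g x => by
    rw [Subsingleton.elim g 1, one_smul]
  have h := phiIs_unitsRep (q := q) (L := L) (p := p)
    (1 : Representation (ZMod p) G (ZMod p)) hG
  obtain ⟨-, -, hcard⟩ := h
  have hρ : ∀ (g : G) (a : Additive Lˣ), unitsRep L G g a = a := fun g a =>
    Additive.toMul.injective (Units.ext (htriv g _))
  rw [card_eHom_zmod _ fun g x => by
      induction x using QuotientAddGroup.induction_on with | _ a => rw [modPRep_mk, hρ],
    card_eHom_zmod _ hρ,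
    card_eHom_zmod _ fun g x => by simp] at hcard
  have e1 : Nat.card {x : ModP p (Additive Lˣ) // p • x = 0}
      = (powMonoidHom p : Lˣ →* Lˣ).range.index := by
    rw [Nat.card_congr (Equiv.subtypeUnivEquiv modP_nsmul_eq_zero), ← AddSubgroup.index_eq_card]
    have : pMul p (Additive Lˣ) = Subgroup.toAddSubgroup (powMonoidHom p : Lˣ →* Lˣ).range := by
      ext a
      exact ⟨fun ⟨b, hb⟩ => ⟨b.toMul, congrArg Additive.toMul hb⟩,
        fun ⟨b, hb⟩ => ⟨Additive.ofMul b, congrArg Additive.ofMul hb⟩⟩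
    rw [this, Subgroup.index_toAddSubgroup]
  have e2 : Nat.card {a : Additive Lˣ // p • a = 0} = p := by
    have : Nat.card (rootsOfUnity p L) = p := hζ.card_rootsOfUnity
    conv_rhs => rw [← this]
    exact Nat.card_congr (Equiv.subtypeEquiv Additive.toMul fun a =>
      ⟨fun ha => (mem_rootsOfUnity p _).2 (congrArg Additive.toMul ha),
        fun ha => congrArg Additive.ofMul ((mem_rootsOfUnity p _).1 ha)⟩)
  have e3 : Nat.card {x : ZMod p // p • x = 0} = p := by
    rw [Nat.card_congr (Equiv.subtypeUnivEquiv fun x => by simp [nsmul_eq_mul]),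
      Nat.card_zmod]
  rw [e1, e2, e3, Nat.card_zmod, hG1, Nat.div_one] at hcard
  rw [hcard]
  split_ifs <;> ring

end Fermat.Agent.CFT.LocalInst

namespace Fermat.Agent.CFT.LocalInst

variable {q : Nat.Primes} {V : Subgroup (primeLocalGaloisGroup q)} {p : ℕ} [Fact p.Prime]

lemma muOmega_fixed (hμ : ∀ τ ∈ V, cycloChar p (primeLocalToGlobal q τ) = 1) (i : ZMod p) :
    muOmega q i ∈ locUnits q V := fun τ hτ => by
  refine (apply_padicEmbedding (τ : Gq q) _).trans ?_
  rw [gal_muInc_of_eq_one (hμ τ hτ)]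
  rfl

theorem locUnits_pow_index (hV : IsLocLevel q V)
    (hμ : ∀ τ ∈ V, cycloChar p (primeLocalToGlobal q τ) = 1) :
    ((powMonoidHom p : (Omega q)ˣ →* (Omega q)ˣ).comp (locUnits q V).subtype).range.relIndex
      (locUnits q V) = p ^ (2 + if (q : ℕ) = p then V.index else 0) := by
  have := finiteDimensional_fld hV
  have := FiniteDimensional.proper ℚ_[(q : ℕ)] (fld V)
  obtain ⟨z, hz⟩ : ∃ z, fldUnits V z = muOmega q (1 : ZMod p) := by
    rw [← MonoidHom.mem_range, fldUnits_range]; exact muOmega_fixed hμ 1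
  have hzp : IsPrimitiveRoot ((z : fld V)) p := by
    refine IsPrimitiveRoot.of_map_of_injective (f := (fld V).val)
      ?_ (fld V).val.injective
    have h1 : IsPrimitiveRoot (muOmega q (1 : ZMod p) : (Omega q)ˣ) p := by
      have : muInc p (1 : ZMod p) = zetaP p := by
        rw [← Nat.cast_one, muInc_natCast, pow_one]
      rw [muOmega, this]
      exact zetaP_isPrimitiveRoot.map_of_injective
        (Units.map_injective (padicEmbedding (q : ℕ)).injective)
    rw [← hz] at h1
    exact IsPrimitiveRoot.coe_units_iff.2 h1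
  have h := index_powers (q := (q : ℕ)) (L := fld V) hzp
  rw [finrank_fld hV] at h
  rw [← h, ← fldUnits_range, ← Subgroup.relIndex_top_right,
    ← Subgroup.relIndex_map_map_of_injective _ _ (fldUnits_injective V), ← MonoidHom.range_eq_map]
  congr 1
  ext a
  constructor
  · rintro ⟨⟨b, c, rfl⟩, rfl⟩
    exact ⟨c ^ p, ⟨c, rfl⟩, map_pow _ _ _⟩
  · rintro ⟨b, ⟨c, rfl⟩, rfl⟩
    exact ⟨⟨fldUnits V c, c, rfl⟩, (map_pow _ _ _).symm⟩

end Fermat.Agent.CFT.LocalInst
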